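/-
S15lib / LocN / Ann / Iface  (helper4)  — Project E, block LOCN, step (5): THE STATEMENT of the abstract
annulus count, as a `Prop` (universe-monomorphic: the modular instances live in `Type`), so that the
instance at level `6 p` can be written against it.

`AnnCountStmt` : for an annulus datum `D` (S44lib) whose two components have GENUS ZERO, with (GLUE-ann),
inertia-type symmetries `S` respecting the annuli (`M.AnnSym`), a fixed place, fixed constants of
valuation in `|pi c|^ℤ`, a uniform coordinate and uniform thickness, and chart divisors `P₁, P₂`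
supported on the smooth locus:  the `S`-fixed `n`-torsion classes of `Pic⁰(F)`, `n` invertible in the
residue field, are finite in number, at most `s · n^(s-1)`  (`s` = the number of nodes; `s = g + 1`).
-/
import Fermat.Agent.S44lib.M.Sides

set_option autoImplicit false
set_option linter.unusedSectionVars false
set_option linter.style.haveILetI false

noncomputable section

namespace Fermat.Agent.S15lib.LocN

open AlgebraicCurve
open Fermat.Agent.LSb Fermat.Agent.S18lib Fermat.Agent.S33lib Fermat.Agent.S44lib

/-- **the abstract annulus count** (proved in `Ann/Card.lean`) -/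
def AnnCountStmt : Prop :=
  ∀ {L : Type} [Field L] {A : ValuationSubring L} {F : Type} [Field F] [Algebra L F]
    [HasPrincipalDivisors L F] {F₁ F₂ : Type} [Field F₁] [Field F₂]
    [Algebra (IsLocalRing.ResidueField A) F₁] [Algebra (IsLocalRing.ResidueField A) F₂]
    [HasPrincipalDivisors (IsLocalRing.ResidueField A) F₁]
    [HasPrincipalDivisors (IsLocalRing.ResidueField A) F₂]
    (D : Ann.AnnDatum A F F₁ F₂) {g : ℕ} (_C : NodalCtx D.nod g 0 0) (_hG : D.GlueAnn)
    {G : Type} [Group G] (S : N.NSym D.toNRedDatum G) (_hS : M.AnnSym D S)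
    (P₀ : Place L F) (_hP₀ : ∀ g : G, S.ρ g • P₀ = P₀)
    (_hval : ∀ (c : Fin D.nod.s) (a : L), a ≠ 0 → (∀ g : G, S.hat g a = a) →
      ∃ m : ℤ, A.valuation a = A.valuation (D.pi c) ^ m)
    (_hz : ∀ c c', D.z c = D.z c')
    (_hpi : ∀ c c', A.valuation (D.pi c) = A.valuation (D.pi c'))
    (_hP₁ : D.SmoothSupp D.nod.P₁) (_hP₂ : D.SmoothSupp D.nod.P₂)
    {n : ℕ} (_hn : (n : IsLocalRing.ResidueField A) ≠ 0),
    Finite {x : Pic0 L F // (n : ℤ) • x = 0 ∧ ∀ g : G, S.ρ g • x = x} ∧
      Nat.card {x : Pic0 L F // (n : ℤ) • x = 0 ∧ ∀ g : G, S.ρ g • x = x} ≤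
        D.nod.s * n ^ (D.nod.s - 1)

end Fermat.Agent.S15lib.LocN
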