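/-
S15lib / LocN / Ann / Move  (helper4)  — Project E, block LOCN, step (5): THE MOVING LEMMA.

`D : Ann.AnnDatum` (S44lib), `C : NodalCtx D.nod g g₁ g₂`, `D.GlueAnn`.  Let `Δ ≥ 0` be a divisor
supported in the annuli whose annulus constants `∏_{P ∈ annulus c} (-z_c(P))^{Δ P}` have INTEGRAL
valuation `|pi c|^{a c}`.  Then there is `f ≠ 0` such that `Δ + div f` is supported on the smooth locus.

Proof.  `X ≥ 0` a big divisor on the smooth locus, `f ∈ L(Δ + X) ∩ O`.  The local equation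
`Qh c = cut c Δ_c · z_c^{-a c}` of `Δ` at the node `c` is a unit on both components, so `f · Qh c` is
integral without pole in the annulus `c` and (GLUE-ann) gives its node value `α_c(f)`.  The reductions of
`L(Δ + X) ∩ O` form a `k`-space `R` of dimension `≥ deg Δ + deg X + 1 - g`; the elements with all node
values `0` inject into `L(E₁') × L(E₂')` (local conservation (LC) at the smooth points), of dimension
`deg Δ + deg X - 2 s + 2 - g₁ - g₂`; as `g + 1 ≤ g₁ + g₂ + s` the node value map `R → k^s` is ONTO.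
Take `f` with all node values `1`: the slope law forces `annDiv c f = -Δ_c`.
-/
import Fermat.Agent.S44lib.Ann.Law
import Fermat.Agent.S44lib.Ann.Count
import Fermat.Agent.S33lib.NB.Kernel

set_option autoImplicit false
set_option linter.unusedSectionVars false
set_option linter.style.haveILetI false

noncomputable section

namespace Fermat.Agent.S15lib.LocN

open AlgebraicCurve Module
open Fermat.Agent.LSb Fermat.Agent.S18lib Fermat.Agent.S33lib Fermat.Agent.S33lib.N
open Fermat.Agent.S44lib Fermat.Agent.S44lib.Ann Fermat.Agent.S19lib.C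

variable {L : Type*} [Field L] {A : ValuationSubring L}
variable {F : Type*} [Field F] [Algebra L F] [HasPrincipalDivisors L F]
variable {F₁ F₂ : Type*} [Field F₁] [Field F₂]
variable [Algebra (IsLocalRing.ResidueField A) F₁] [Algebra (IsLocalRing.ResidueField A) F₂]

local notation "k" => IsLocalRing.ResidueField A

/-! ### normalisation by a unit constant -/

section GS

variable {Fk : Type*} [Field Fk] [Algebra (IsLocalRing.ResidueField A) Fk]
variable {G : GaussDatum A F Fk} {x : Place (IsLocalRing.ResidueField A) Fk}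

/-- a normalising constant of absolute value `1` may be replaced by `1` -/
theorem gslope_one_of_val_eq_one {h : F} {a : L} {m : ℤ} (hs : GSlope G x h a m)
    (ha : A.valuation a = 1) : GSlope G x h 1 m := by
  have hA : a ∈ A := (A.valuation_le_one_iff _).1 ha.le
  have ha0 : a ≠ 0 := hs.1
  have hres : IsLocalRing.residue A ⟨a, hA⟩ ≠ 0 := by
    rw [Ne, IsLocalRing.residue_eq_zero_iff, A.valuation_lt_one_iff]
    show ¬ A.valuation a < 1
    rw [ha]; exact lt_irrefl _
  have e : h = algebraMap L F ((⟨a, hA⟩ : A) : L) * ((algebraMap L F a)⁻¹ * h) := by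
    show h = algebraMap L F a * _
    have : algebraMap L F a ≠ 0 := (map_ne_zero _).2 ha0
    field_simp
  have hred : G.redF h = IsLocalRing.residue A ⟨a, hA⟩ • G.redF ((algebraMap L F a)⁻¹ * h) := by
    conv_lhs => rw [e]
    exact G.redF_smul _ hs.2.1
  have hne : G.redF h ≠ 0 := by
    rw [hred]
    exact smul_ne_zero hres hs.2.2.1
  have hord : x.ord (G.redF h) = m := by
    rw [hred, Algebra.smul_def, x.ord_mul ((map_ne_zero _).2 hres) hs.2.2.1,
      S18lib.Cech.ord_const, zero_add, hs.2.2.2]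
  have := GSlope.of_redF_ne_zero (G := G) (x := x) hne
  rwa [hord] at this

end GS

/-! ### the local equation of a divisor in an annulus -/

section LocEq

variable (D : AnnDatum A F F₁ F₂)

/-- the part of a divisor in the annulus `c` -/
def annPart (c : Fin D.nod.s) (Δ : Divisor L F) : Divisor L F :=
  Δ.filter fun P => D.ann P = some c

theorem annPart_apply_of_mem {c : Fin D.nod.s} {Δ : Divisor L F} {P : Place L F}
    (hP : D.ann P = some c) : annPart D c Δ P = Δ P :=
  Finsupp.filter_apply_pos (fun P => D.ann P = some c) _ hP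

theorem annPart_apply_of_not_mem {c : Fin D.nod.s} {Δ : Divisor L F} {P : Place L F}
    (hP : ¬ D.ann P = some c) : annPart D c Δ P = 0 :=
  Finsupp.filter_apply_neg (fun P => D.ann P = some c) _ hP

theorem ann_of_mem_support_annPart {c : Fin D.nod.s} {Δ : Divisor L F} :
    ∀ P ∈ (annPart D c Δ).support, D.ann P = some c := by
  intro P hP
  by_contra h
  rw [Finsupp.mem_support_iff, annPart_apply_of_not_mem D h] at hP
  exact hP rfl

/-- the degree of the part in the annulus `c` -/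
def annDegD (c : Fin D.nod.s) (Δ : Divisor L F) : ℤ := (annPart D c Δ).sum fun _ n => n

/-- the annulus constant `∏_{P ∈ annulus c} (-z_c(P))^{Δ P}` -/
def annCst (c : Fin D.nod.s) (Δ : Divisor L F) : L :=
  ∏ P ∈ (annPart D c Δ).support, (-D.zval c P) ^ (annPart D c Δ) P

/-- the local equation of `Δ` at the node `c`, for the exponent `a` -/
def locEq (c : Fin D.nod.s) (Δ : Divisor L F) (a : ℤ) : F :=
  D.cut c (annPart D c Δ) * D.z c ^ (-a)

theorem locEq_ne_zero (c : Fin D.nod.s) (Δ : Divisor L F) (a : ℤ) : locEq D c Δ a ≠ 0 :=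
  mul_ne_zero (D.cut_ne_zero (ann_of_mem_support_annPart D)) (zpow_ne_zero _ (D.z_ne_zero c))

theorem slope₁_locEq (c : Fin D.nod.s) (Δ : Divisor L F) (a : ℤ) :
    D.Slope₁ c (locEq D c Δ a) 1 (annDegD D c Δ - a) := by
  have h1 := D.slope₁_iff.1 (D.slope₁_cut (ann_of_mem_support_annPart D (c := c) (Δ := Δ)))
  have h2 := GSlope.zpow (D.slope₁_iff.1 (D.slope₁_z c)) (-a)
  refine GSlope.congr (h1.mul h2) ?_ ?_
  · rw [one_zpow, mul_one]
  · unfold annDegD; ring

theorem slope₂_locEq (c : Fin D.nod.s) (Δ : Divisor L F) {a : ℤ}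
    (ha : A.valuation (annCst D c Δ) = A.valuation (D.pi c) ^ a) :
    D.Slope₂ c (locEq D c Δ a) 1 a := by
  have h1 := D.slope₂_iff.1 (D.slope₂_cut (ann_of_mem_support_annPart D (c := c) (Δ := Δ)))
  have h2 := GSlope.zpow (D.slope₂_iff.1 (D.slope₂_z c)) (-a)
  have h3 : GSlope D.nod.V₂ (D.nod.x₂ c) (locEq D c Δ a) (annCst D c Δ * D.pi c ^ (-a)) a :=
    GSlope.congr (h1.mul h2) rfl (by ring)
  refine gslope_one_of_val_eq_one h3 ?_
  have hpi : A.valuation (D.pi c) ≠ 0 := (Valuation.ne_zero_iff _).2 (D.pi_ne_zero c)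
  rw [map_mul, map_zpow₀, ha, ← zpow_add₀ hpi, add_neg_cancel, zpow_zero]

theorem annDiv_locEq (c : Fin D.nod.s) (Δ : Divisor L F) (a : ℤ) :
    D.annDiv c (locEq D c Δ a) = annPart D c Δ := by
  have hz : D.annDiv c (D.z c) = 0 := by
    ext Q
    by_cases hQ : D.ann Q = some c
    · rw [D.annDiv_apply_of_mem hQ, D.ord_z_eq_zero hQ]; rfl
    · unfold AnnDatum.annDiv
      rw [Finsupp.filter_apply_neg (fun P => D.ann P = some c) _ hQ]; rfl
  unfold locEq
  rw [D.annDiv_mul (D.cut_ne_zero (ann_of_mem_support_annPart D)) (zpow_ne_zero _ (D.z_ne_zero c)),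
    D.annDiv_cut (ann_of_mem_support_annPart D), D.annDiv_zpow, hz, smul_zero, add_zero]

end LocEq

/-! ### node values of the sections of `L(Δ + X)` -/

section NodeValue

variable (D : AnnDatum A F F₁ F₂)

/-- a place of an annulus does not lie on the smooth locus -/
theorem r_eq_none_of_ann {c : Fin D.nod.s} {P : Place L F} (hP : D.ann P = some c) :
    D.r P = none := by
  by_contra h
  have := (D.ann_eq_none_iff P).2 h
  rw [hP] at this
  exact Option.some_ne_none c this

theorem exists_ann_of_r_eq_none {P : Place L F} (hP : D.r P = none) : ∃ c, D.ann P = some c := by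
  apply Option.ne_none_iff_exists'.1
  intro h
  exact (D.ann_eq_none_iff P).1 h hP

variable {Δ X : Divisor L F} (hX : ∀ P, X P ≠ 0 → D.r P ≠ none)
include hX

/-- `f · (local equation)` has no pole in the annulus -/
theorem ord_mul_locEq_nonneg {c : Fin D.nod.s} (a : ℤ) {f : F}
    (hf : f ∈ riemannRochSpace (Δ + X)) {P : Place L F} (hP : D.ann P = some c) :
    0 ≤ P.ord (f * locEq D c Δ a) := by
  by_cases hf0 : f = 0
  · rw [hf0, zero_mul, P.ord_zero]
  have hXP : X P = 0 := by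
    by_contra h
    exact hX P h (r_eq_none_of_ann D hP)
  have h1 : P.ord (locEq D c Δ a) = Δ P := by
    rw [← D.annDiv_apply_of_mem hP, annDiv_locEq, annPart_apply_of_mem D hP]
  rw [P.ord_mul hf0 (locEq_ne_zero D c Δ a), h1]
  rcases (mem_riemannRochSpace_iff.1 hf) P with h | h
  · exact absurd h hf0
  · rw [Finsupp.add_apply, hXP, add_zero] at h
    linarith

/-- **the node value** of a section of `L(Δ + X) ∩ O` -/
theorem exists_node_value (hG : D.GlueAnn) {c : Fin D.nod.s} {a : ℤ}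
    (ha : A.valuation (annCst D c Δ) = A.valuation (D.pi c) ^ a) {f : F}
    (hf : f ∈ riemannRochSpace (Δ + X)) (hf₁ : f ∈ D.nod.V₁.O) (hf₂ : f ∈ D.nod.V₂.O) :
    ∃ α : k, HasValueAt (D.nod.x₁ c) (D.nod.V₁.redF f * D.nod.V₁.redF (locEq D c Δ a)) α ∧
      HasValueAt (D.nod.x₂ c) (D.nod.V₂.redF f * D.nod.V₂.redF (locEq D c Δ a)) α := by
  have s1 := GSlope.redF_ne_zero_of_one (D.slope₁_iff.1 (slope₁_locEq D c Δ a))
  have s2 := GSlope.redF_ne_zero_of_one (D.slope₂_iff.1 (slope₂_locEq D c Δ ha))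
  have m1 : locEq D c Δ a ∈ D.nod.V₁.O := D.nod.V₁.mem_of_redF_ne_zero s1.1
  have m2 : locEq D c Δ a ∈ D.nod.V₂.O := D.nod.V₂.mem_of_redF_ne_zero s2.1
  obtain ⟨α, h1, h2⟩ := hG (f * locEq D c Δ a) c (D.nod.V₁.O.mul_mem _ _ hf₁ m1)
    (D.nod.V₂.O.mul_mem _ _ hf₂ m2) (fun P hP => ord_mul_locEq_nonneg D hX a hf hP)
  rw [D.nod.V₁.redF_mul hf₁ m1] at h1
  rw [D.nod.V₂.redF_mul hf₂ m2] at h2
  exact ⟨α, h1, h2⟩

/-- **a section whose node value at `c` is a unit has exactly the poles `Δ` in the annulus `c`** -/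
theorem annDiv_eq_neg_of_node_value (hG : D.GlueAnn) {c : Fin D.nod.s} {a : ℤ}
    (ha : A.valuation (annCst D c Δ) = A.valuation (D.pi c) ^ a) {f : F}
    (hf : f ∈ riemannRochSpace (Δ + X)) (hf₁ : f ∈ D.nod.V₁.O) (hf₂ : f ∈ D.nod.V₂.O)
    {α : k} (hα : α ≠ 0)
    (h1 : HasValueAt (D.nod.x₁ c) (D.nod.V₁.redF f * D.nod.V₁.redF (locEq D c Δ a)) α)
    (h2 : HasValueAt (D.nod.x₂ c) (D.nod.V₂.redF f * D.nod.V₂.redF (locEq D c Δ a)) α) :
    D.annDiv c f = -annPart D c Δ := by
  have s1 := GSlope.redF_ne_zero_of_one (D.slope₁_iff.1 (slope₁_locEq D c Δ a))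
  have s2 := GSlope.redF_ne_zero_of_one (D.slope₂_iff.1 (slope₂_locEq D c Δ ha))
  have m1 : locEq D c Δ a ∈ D.nod.V₁.O := D.nod.V₁.mem_of_redF_ne_zero s1.1
  have m2 : locEq D c Δ a ∈ D.nod.V₂.O := D.nod.V₂.mem_of_redF_ne_zero s2.1
  set g : F := f * locEq D c Δ a with hg
  have e1 : D.nod.V₁.redF g = D.nod.V₁.redF f * D.nod.V₁.redF (locEq D c Δ a) :=
    D.nod.V₁.redF_mul hf₁ m1
  have e2 : D.nod.V₂.redF g = D.nod.V₂.redF f * D.nod.V₂.redF (locEq D c Δ a) :=
    D.nod.V₂.redF_mul hf₂ m2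
  rw [← e1] at h1
  rw [← e2] at h2
  have hf0 : f ≠ 0 := by
    rintro rfl
    rw [hg, zero_mul, D.nod.V₁.redF_zero] at h1
    exact hα (h1.eq_zero_of_eq_zero)
  have hg0 : g ≠ 0 := mul_ne_zero hf0 (locEq_ne_zero D c Δ a)
  -- slopes of `g`
  have S1 : D.Slope₁ c g 1 0 := by
    have := GSlope.of_redF_ne_zero (G := D.nod.V₁) (x := D.nod.x₁ c) (h1.ne_zero hα)
    rwa [h1.ord_eq_zero hα] at this
  have S2 : D.Slope₂ c g 1 0 := by
    have := GSlope.of_redF_ne_zero (G := D.nod.V₂) (x := D.nod.x₂ c) (h2.ne_zero hα)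
    rwa [h2.ord_eq_zero hα] at this
  obtain ⟨hdeg, -⟩ := D.slopeLaw_of_glueAnn hG g hg0 c 1 1 0 0 S1 S2
  -- `annDiv c g ≥ 0` with sum `0`
  have hnn : ∀ P, 0 ≤ D.annDiv c g P := by
    intro P
    by_cases hP : D.ann P = some c
    · rw [D.annDiv_apply_of_mem hP]
      exact ord_mul_locEq_nonneg D hX a hf hP
    · unfold AnnDatum.annDiv
      rw [Finsupp.filter_apply_neg (fun P => D.ann P = some c) _ hP]
  have hzero : D.annDiv c g = 0 :=
    Finsupp.ext (finsupp_eq_zero_of_sum _ hnn (by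
      have : D.annDeg c g = 0 := by rw [← hdeg]; ring
      exact this))
  rw [hg, D.annDiv_mul hf0 (locEq_ne_zero D c Δ a), annDiv_locEq] at hzero
  exact eq_neg_of_add_eq_zero_left hzero

end NodeValue

/-! ### one component: the reduction of a section lies in a Riemann–Roch space -/

section Disc

variable {Fk : Type*} [Field Fk] [Algebra (IsLocalRing.ResidueField A) Fk]

theorem sum_single_apply_self {ι : Type*} {s : ℕ} {x : Fin s → ι} (hx : Function.Injective x)
    (m : Fin s → ℤ) (c : Fin s) :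
    (∑ c', (Finsupp.single (x c') (m c') : ι →₀ ℤ)) (x c) = m c := by
  classical
  rw [Finsupp.finsetSum_apply, Finset.sum_eq_single c]
  · rw [Finsupp.single_eq_same]
  · intro c' _ hc'
    rw [Finsupp.single_apply, if_neg (fun h => hc' (hx h))]
  · intro h; exact absurd (Finset.mem_univ c) h

theorem sum_single_apply_of_ne {ι : Type*} {s : ℕ} {x : Fin s → ι} (m : Fin s → ℤ) {Q : ι}
    (hQ : ∀ c, Q ≠ x c) : (∑ c', (Finsupp.single (x c') (m c') : ι →₀ ℤ)) Q = 0 := by
  classical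
  rw [Finsupp.finsetSum_apply]
  refine Finset.sum_eq_zero fun c' _ => ?_
  rw [Finsupp.single_apply, if_neg (fun h => hQ c' h.symm)]

theorem degree_sum_single {K' F' : Type*} [Field K'] [Field F'] [Algebra K' F'] {s : ℕ}
    (x : Fin s → Place K' F') (hd : ∀ v : Place K' F', v.deg = 1) (m : Fin s → ℤ) :
    Divisor.degree (∑ c, (Finsupp.single (x c) (m c) : Divisor K' F')) = ∑ c, m c := by
  rw [map_sum]
  refine Finset.sum_congr rfl fun c _ => ?_
  rw [Divisor.degree_single, hd]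
  simp

/-- **(LC) in Riemann–Roch form**: the reduction of `f ∈ L(E)` lies in `L(r_* E + Σ m_c x_c)` as soon as
its orders at the nodes `x_c` are `≥ -m_c` -/
theorem redF_mem_rr_of_node_bounds (Dd : DiscDatum A F Fk) {s : ℕ}
    (x : Fin s → Place (IsLocalRing.ResidueField A) Fk) (hxinj : Function.Injective x)
    (hgood : ∀ Q : Place (IsLocalRing.ResidueField A) Fk, (∀ c, Q ≠ x c) → Dd.Good Q)
    (hbad : ∀ (c : Fin s) (P : Place L F), Dd.r P ≠ some (x c))
    {E : Divisor L F} {f : F} (hf : f ∈ riemannRochSpace E) (m : Fin s → ℤ)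
    (hm : ∀ c, Dd.G.redF f = 0 ∨ -m c ≤ (x c).ord (Dd.G.redF f)) :
    Dd.G.redF f ∈ riemannRochSpace (pushO Dd.r E + ∑ c, Finsupp.single (x c) (m c)) := by
  classical
  by_cases h0 : Dd.G.redF f = 0
  · rw [h0]; exact Submodule.zero_mem _
  have hf0 : f ≠ 0 := by
    rintro rfl
    exact h0 Dd.G.redF_zero
  rw [mem_riemannRochSpace_iff]
  intro Q
  right
  rw [Finsupp.add_apply]
  by_cases hQ : ∃ c, Q = x c
  · obtain ⟨c, rfl⟩ := hQ
    rw [NB.pushO_apply_eq_zero Dd.r E (hbad c), sum_single_apply_self hxinj, zero_add]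
    exact (hm c).resolve_left h0
  · push Not at hQ
    rw [sum_single_apply_of_ne m hQ, add_zero, ← Dd.pushO_divOf h0 (hgood Q hQ)]
    have hnn : (0 : Divisor L F) ≤ divOf (K := L) f + E := by
      rw [Finsupp.le_def]
      intro P
      rw [Finsupp.zero_apply, Finsupp.add_apply, divOf_apply']
      rcases (mem_riemannRochSpace_iff.1 hf) P with h | h
      · exact absurd h hf0
      · linarith
    have := Finsupp.le_def.1 (NB.pushO_nonneg Dd.r hnn) Q
    rw [Finsupp.zero_apply, map_add, Finsupp.add_apply] at this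
    linarith

end Disc

/-! ### the dimension count -/

section Count

variable (D : AnnDatum A F F₁ F₂)

theorem fst?_eq_none_of_r {P : Place L F} (h : D.r P = none) : fst? D.r P = none := by
  unfold fst?; rw [h]; rfl

theorem snd?_eq_none_of_r {P : Place L F} (h : D.r P = none) : snd? D.r P = none := by
  unfold snd?; rw [h]; rfl

theorem mem_valuationSubring_of_hasValueAt {K' F' : Type*} [Field K'] [Field F'] [Algebra K' F']
    {Q : Place K' F'} {z : F'} {α : K'} (h : HasValueAt Q z α) : z ∈ Q.toValuationSubring := by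
  have h1 : Core.VanishAt Q (z - algebraMap K' F' α) := h
  have := add_mem h1.mem (Q.algebraMap_mem' α)
  rwa [sub_add_cancel] at this

/-- the degree of a divisor supported in the annuli -/
theorem degree_eq_sum_annDegD {g g₁ g₂ : ℕ} (C : NodalCtx D.nod g g₁ g₂) {Δ : Divisor L F}
    (hΔ : ∀ P, Δ P ≠ 0 → D.r P = none) : Divisor.degree Δ = ∑ c, annDegD D c Δ := by
  have h := degree_decomp D.toNRedDatum D.ann D.ann_eq_none_iff Δ
  have e1 : D.push₁ Δ = 0 :=
    NB.pushO_eq_zero_of_support_none _ _ fun P hP => fst?_eq_none_of_r D (hΔ P hP)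
  have e2 : D.push₂ Δ = 0 :=
    NB.pushO_eq_zero_of_support_none _ _ fun P hP => snd?_eq_none_of_r D (hΔ P hP)
  rw [e1, e2, map_zero, map_zero, zero_add, zero_add] at h
  rw [h]
  refine Finset.sum_congr rfl fun c _ => ?_
  exact degree_eq_sum_of_deg_one C.hF.deg_eq_one _

/-- the degree of a divisor supported on the smooth locus -/
theorem degree_eq_push_of_smooth {X : Divisor L F} (hX : ∀ P, X P ≠ 0 → D.r P ≠ none) :
    Divisor.degree X = Divisor.degree (D.push₁ X) + Divisor.degree (D.push₂ X) := by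
  have h := degree_decomp D.toNRedDatum D.ann D.ann_eq_none_iff X
  have e : ∀ c, X.filter (fun P => D.ann P = some c) = 0 := by
    intro c
    ext P
    by_cases hP : D.ann P = some c
    · rw [Finsupp.filter_apply_pos (fun P => D.ann P = some c) _ hP, Finsupp.zero_apply]
      by_contra h0
      exact hX P h0 (r_eq_none_of_ann D hP)
    · rw [Finsupp.filter_apply_neg (fun P => D.ann P = some c) _ hP, Finsupp.zero_apply]
  rw [h]
  simp [e]

variable {g g₁ g₂ : ℕ} (C : NodalCtx D.nod g g₁ g₂) (hG : D.GlueAnn)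
variable {Δ X : Divisor L F} (hΔ : ∀ P, Δ P ≠ 0 → D.r P = none)
  (hX : ∀ P, X P ≠ 0 → D.r P ≠ none) (a : Fin D.nod.s → ℤ)
  (ha : ∀ c, A.valuation (annCst D c Δ) = A.valuation (D.pi c) ^ a c)

include C hG hΔ hX ha in
/-- **the node value map is onto**: there is a section of `L(Δ + X) ∩ O` with all node values `1` -/
theorem exists_section
    (h₁ : 2 * (g₁ : ℤ) - 2 < Divisor.degree (D.push₁ X) + ∑ c, (annDegD D c Δ - a c - 1))
    (h₂ : 2 * (g₂ : ℤ) - 2 < Divisor.degree (D.push₂ X) + ∑ c, (a c - 1)) :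
    ∃ f ∈ riemannRochSpace (Δ + X), f ∈ D.nod.V₁.O ∧ f ∈ D.nod.V₂.O ∧ ∀ c,
      HasValueAt (D.nod.x₁ c) (D.nod.V₁.redF f * D.nod.V₁.redF (locEq D c Δ (a c))) 1 ∧
      HasValueAt (D.nod.x₂ c) (D.nod.V₂.redF f * D.nod.V₂.redF (locEq D c Δ (a c))) 1 := by
  classical
  have hd₁ := C.hF₁.deg_eq_one
  have hd₂ := C.hF₂.deg_eq_one
  haveI := C.hF₁.hasPrincipalDivisors
  haveI := C.hF₂.hasPrincipalDivisors
  haveI := C.hF.finiteDimensional (Δ + X)
  haveI := NodalDatum.finiteDimensional_redSub C.hD (riemannRochSpace (Δ + X))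
  set R : Submodule k (F₁ × F₂) := D.nod.redSub (riemannRochSpace (Δ + X)) with hR
  set q₁ : Fin D.nod.s → F₁ := fun c => D.nod.V₁.redF (locEq D c Δ (a c)) with hq₁
  set q₂ : Fin D.nod.s → F₂ := fun c => D.nod.V₂.redF (locEq D c Δ (a c)) with hq₂
  have s1 : ∀ c, q₁ c ≠ 0 ∧ (D.nod.x₁ c).ord (q₁ c) = annDegD D c Δ - a c := fun c =>
    GSlope.redF_ne_zero_of_one (D.slope₁_iff.1 (slope₁_locEq D c Δ (a c)))
  have s2 : ∀ c, q₂ c ≠ 0 ∧ (D.nod.x₂ c).ord (q₂ c) = a c := fun c =>
    GSlope.redF_ne_zero_of_one (D.slope₂_iff.1 (slope₂_locEq D c Δ (ha c)))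
  -- node values of the members of `R`
  have key : ∀ χ ∈ R, ∀ c, ∃ α : k, HasValueAt (D.nod.x₁ c) (χ.1 * q₁ c) α ∧
      HasValueAt (D.nod.x₂ c) (χ.2 * q₂ c) α := by
    rintro _ ⟨f, hfW, hfO, rfl⟩ c
    obtain ⟨m1, m2⟩ := NodalDatum.mem_O.1 hfO
    exact exists_node_value D hX hG (ha c) hfW m1 m2
  have reg₁ : ∀ χ ∈ R, ∀ c, χ.1 * q₁ c ∈ (D.nod.x₁ c).toValuationSubring := fun χ hχ c => by
    obtain ⟨α, h, -⟩ := key χ hχ c
    exact mem_valuationSubring_of_hasValueAt h
  -- the node value map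
  let T : R →ₗ[k] (Fin D.nod.s → k) :=
    { toFun := fun χ c => Core.valAt (D.nod.x₁ c) ((χ : F₁ × F₂).1 * q₁ c)
      map_add' := fun χ ψ => by
        funext c
        show Core.valAt (D.nod.x₁ c) (((χ : F₁ × F₂) + (ψ : F₁ × F₂)).1 * q₁ c) = _
        rw [Prod.fst_add, add_mul, Core.valAt_add _ (hd₁ _) (reg₁ _ χ.2 c) (reg₁ _ ψ.2 c)]
        rfl
      map_smul' := fun b χ => by
        funext c
        show Core.valAt (D.nod.x₁ c) ((b • (χ : F₁ × F₂)).1 * q₁ c) = _
        rw [Prod.smul_fst, smul_mul_assoc, Core.valAt_smul _ (hd₁ _) b (reg₁ _ χ.2 c)]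
        rfl }
  have hT : ∀ (χ : R) (c : Fin D.nod.s),
      T χ c = Core.valAt (D.nod.x₁ c) ((χ : F₁ × F₂).1 * q₁ c) := fun _ _ => rfl
  -- the kernel
  set E₁' : Divisor k F₁ := D.push₁ X +
    ∑ c, Finsupp.single (D.nod.x₁ c) (annDegD D c Δ - a c - 1) with hE₁'
  set E₂' : Divisor k F₂ := D.push₂ X + ∑ c, Finsupp.single (D.nod.x₂ c) (a c - 1) with hE₂'
  have pΔ₁ : D.push₁ Δ = 0 :=
    NB.pushO_eq_zero_of_support_none _ _ fun P hP => fst?_eq_none_of_r D (hΔ P hP)
  have pΔ₂ : D.push₂ Δ = 0 :=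
    NB.pushO_eq_zero_of_support_none _ _ fun P hP => snd?_eq_none_of_r D (hΔ P hP)
  have hker : ∀ χ : R, T χ = 0 → (χ : F₁ × F₂).1 ∈ riemannRochSpace E₁' ∧
      (χ : F₁ × F₂).2 ∈ riemannRochSpace E₂' := by
    rintro ⟨_, f, hfW, hfO, rfl⟩ hχ
    obtain ⟨m1, m2⟩ := NodalDatum.mem_O.1 hfO
    have hval : ∀ c, HasValueAt (D.nod.x₁ c) (D.nod.V₁.redF f * q₁ c) 0 ∧
        HasValueAt (D.nod.x₂ c) (D.nod.V₂.redF f * q₂ c) 0 := by
      intro c
      obtain ⟨α, e1, e2⟩ := exists_node_value D hX hG (ha c) hfW m1 m2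
      have h0 : Core.valAt (D.nod.x₁ c) (D.nod.V₁.redF f * q₁ c) = 0 := congrFun hχ c
      have hα : α = 0 := by
        rw [← Core.valAt_eq_of_vanishAt (show Core.VanishAt _ _ from e1)]
        exact h0
      rw [hα] at e1 e2
      exact ⟨e1, e2⟩
    constructor
    · have := redF_mem_rr_of_node_bounds D.D₁ D.nod.x₁ C.x₁_injective
        (fun Q hQ => Kap.good₁_of_ne D.toNRedDatum hQ) (Kap.not_good₁ D.toNRedDatum) hfW
        (fun c => annDegD D c Δ - a c - 1) (fun c => by
          by_cases h0 : D.nod.V₁.redF f = 0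
          · exact Or.inl h0
          right
          rcases hasValueAt_zero_iff.1 (hval c).1 with h | h
          · exact absurd h (mul_ne_zero h0 (s1 c).1)
          · rw [(D.nod.x₁ c).ord_mul h0 (s1 c).1, (s1 c).2] at h
            show -(annDegD D c Δ - a c - 1) ≤ (D.nod.x₁ c).ord (D.nod.V₁.redF f)
            linarith)
      have e : pushO D.D₁.r (Δ + X) = D.push₁ X := by
        show D.push₁ (Δ + X) = _
        rw [map_add, pΔ₁, zero_add]
      rw [e] at this
      exact this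
    · have := redF_mem_rr_of_node_bounds D.D₂ D.nod.x₂ C.x₂_injective
        (fun Q hQ => Kap.good₂_of_ne D.toNRedDatum hQ) (Kap.not_good₂ D.toNRedDatum) hfW
        (fun c => a c - 1) (fun c => by
          by_cases h0 : D.nod.V₂.redF f = 0
          · exact Or.inl h0
          right
          rcases hasValueAt_zero_iff.1 (hval c).2 with h | h
          · exact absurd h (mul_ne_zero h0 (s2 c).1)
          · rw [(D.nod.x₂ c).ord_mul h0 (s2 c).1, (s2 c).2] at h
            show -(a c - 1) ≤ (D.nod.x₂ c).ord (D.nod.V₂.redF f)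
            linarith)
      have e : pushO D.D₂.r (Δ + X) = D.push₂ X := by
        show D.push₂ (Δ + X) = _
        rw [map_add, pΔ₂, zero_add]
      rw [e] at this
      exact this
  -- the kernel injects into `L(E₁') × L(E₂')`
  haveI := C.hF₁.finiteDimensional E₁'
  haveI := C.hF₂.finiteDimensional E₂'
  let ι : LinearMap.ker T →ₗ[k] (riemannRochSpace E₁' × riemannRochSpace E₂') :=
    { toFun := fun χ => (⟨((χ : R) : F₁ × F₂).1, (hker χ.1 χ.2).1⟩,
        ⟨((χ : R) : F₁ × F₂).2, (hker χ.1 χ.2).2⟩)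
      map_add' := fun χ ψ => rfl
      map_smul' := fun b χ => rfl }
  have hιinj : Function.Injective ι := by
    intro χ ψ h
    have e1 := congrArg (fun t : riemannRochSpace E₁' × riemannRochSpace E₂' => (t.1 : F₁)) h
    have e2 := congrArg (fun t : riemannRochSpace E₁' × riemannRochSpace E₂' => (t.2 : F₂)) h
    exact Subtype.ext (Subtype.ext (Prod.ext e1 e2))
  have hkerdim : finrank k (LinearMap.ker T) ≤
      finrank k (riemannRochSpace E₁') + finrank k (riemannRochSpace E₂') := by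
    have := LinearMap.finrank_le_finrank_of_injective hιinj
    rwa [Module.finrank_prod] at this
  -- degrees
  have dE₁ : Divisor.degree E₁' = Divisor.degree (D.push₁ X) + ∑ c, (annDegD D c Δ - a c - 1) := by
    rw [hE₁', map_add, degree_sum_single _ hd₁]
  have dE₂ : Divisor.degree E₂' = Divisor.degree (D.push₂ X) + ∑ c, (a c - 1) := by
    rw [hE₂', map_add, degree_sum_single _ hd₂]
  have r1 := C.hF₁.riemann_eq E₁' (by rw [dE₁]; exact h₁)
  have r2 := C.hF₂.riemann_eq E₂' (by rw [dE₂]; exact h₂)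
  have hRdim : (finrank k R : ℤ) = finrank L (riemannRochSpace (Δ + X)) := by
    rw [hR, NodalDatum.finrank_redSub C.hD]
  have hW := C.hF.riemann_le (Δ + X)
  rw [map_add, degree_eq_sum_annDegD D C hΔ, degree_eq_push_of_smooth D hX] at hW
  have hrn := LinearMap.finrank_range_add_finrank_ker T
  have hcount : ((g : ℤ) + 1) ≤ g₁ + g₂ + D.nod.s := by exact_mod_cast C.count
  have hsum : ∑ c : Fin D.nod.s, (annDegD D c Δ - a c - 1) + ∑ c : Fin D.nod.s, (a c - 1) =
      ∑ c, annDegD D c Δ - 2 * (D.nod.s : ℤ) := by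
    rw [← Finset.sum_add_distrib]
    have : ∀ c : Fin D.nod.s, annDegD D c Δ - a c - 1 + (a c - 1) = annDegD D c Δ - 2 := fun c => by
      ring
    rw [Finset.sum_congr rfl fun c _ => this c, Finset.sum_sub_distrib]
    simp
    ring
  have hrange : (D.nod.s : ℤ) ≤ finrank k (LinearMap.range T) := by
    have h3 : (finrank k (LinearMap.range T) : ℤ) + finrank k (LinearMap.ker T) = finrank k R := by
      exact_mod_cast hrn
    have h4 : (finrank k (LinearMap.ker T) : ℤ) ≤
        finrank k (riemannRochSpace E₁') + finrank k (riemannRochSpace E₂') := by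
      exact_mod_cast hkerdim
    rw [r1, r2, dE₁, dE₂] at h4
    linarith
  have htop : LinearMap.range T = ⊤ := by
    apply Submodule.eq_top_of_finrank_eq
    apply le_antisymm (Submodule.finrank_le _)
    rw [Module.finrank_fintype_fun_eq_card, Fintype.card_fin]
    exact_mod_cast hrange
  obtain ⟨⟨_, f, hfW, hfO, rfl⟩, hχ⟩ := LinearMap.range_eq_top.1 htop (fun _ => 1)
  obtain ⟨m1, m2⟩ := NodalDatum.mem_O.1 hfO
  refine ⟨f, hfW, m1, m2, fun c => ?_⟩
  obtain ⟨α, e1, e2⟩ := exists_node_value D hX hG (ha c) hfW m1 m2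
  have h1 : Core.valAt (D.nod.x₁ c) (D.nod.V₁.redF f * q₁ c) = 1 := congrFun hχ c
  have hα : α = 1 := by
    rw [← Core.valAt_eq_of_vanishAt (show Core.VanishAt _ _ from e1)]
    exact h1
  rw [hα] at e1 e2
  exact ⟨e1, e2⟩

include C hG hΔ ha in
/-- **the moving lemma**: a divisor supported in the annuli whose annulus constants have valuations
in `|π_c|^ℤ` is linearly equivalent to a divisor supported on the smooth locus. -/
theorem exists_move :
    ∃ f : F, f ≠ 0 ∧ ∀ P, D.r P = none → (Δ + divOf (K := L) f) P = 0 := by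
  classical
  by_cases hne : Nonempty (Fin D.nod.s)
  swap
  · refine ⟨1, one_ne_zero, fun P hP => ?_⟩
    obtain ⟨c, -⟩ := exists_ann_of_r_eq_none D hP
    exact absurd ⟨c⟩ hne
  obtain ⟨c₀⟩ := hne
  have hd₁ := C.hF₁.deg_eq_one
  have hd₂ := C.hF₂.deg_eq_one
  -- two smooth points, one on each component
  obtain ⟨Q₁, hQ₁⟩ : ∃ Q₁ : Place k F₁, ∀ c, Q₁ ≠ D.nod.x₁ c := by
    haveI := C.hF₁.infinite_places
    obtain ⟨Q, hQ⟩ := Infinite.exists_notMem_finset (Finset.univ.image D.nod.x₁)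
    exact ⟨Q, fun c h => hQ (by rw [h]; exact Finset.mem_image_of_mem _ (Finset.mem_univ c))⟩
  obtain ⟨Q₂, hQ₂⟩ : ∃ Q₂ : Place k F₂, ∀ c, Q₂ ≠ D.nod.x₂ c := by
    haveI := C.hF₂.infinite_places
    obtain ⟨Q, hQ⟩ := Infinite.exists_notMem_finset (Finset.univ.image D.nod.x₂)
    exact ⟨Q, fun c h => hQ (by rw [h]; exact Finset.mem_image_of_mem _ (Finset.mem_univ c))⟩
  obtain ⟨P₁, hP₁⟩ := D.r_surj₁ Q₁ hQ₁
  obtain ⟨P₂, hP₂⟩ := D.r_surj₂ Q₂ hQ₂
  -- a large multiple of `P₁ + P₂`
  set B₁ : ℤ := 2 * (g₁ : ℤ) - 2 - ∑ c, (annDegD D c Δ - a c - 1) with hB₁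
  set B₂ : ℤ := 2 * (g₂ : ℤ) - 2 - ∑ c, (a c - 1) with hB₂
  set m : ℤ := |B₁| + |B₂| + 1 with hm
  set X : Divisor L F := Finsupp.single P₁ m + Finsupp.single P₂ m with hXdef
  have hX : ∀ P, X P ≠ 0 → D.r P ≠ none := by
    intro P hP hr
    apply hP
    have n1 : P₁ ≠ P := fun h => by rw [← h, hP₁] at hr; exact Option.some_ne_none _ hr
    have n2 : P₂ ≠ P := fun h => by rw [← h, hP₂] at hr; exact Option.some_ne_none _ hr
    rw [hXdef, Finsupp.add_apply, Finsupp.single_apply, Finsupp.single_apply, if_neg n1, if_neg n2,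
      add_zero]
  have f11 : fst? D.r P₁ = some Q₁ := fst?_eq_some.2 hP₁
  have f12 : fst? D.r P₂ = none := by
    unfold fst?; rw [hP₂]; rfl
  have f21 : snd? D.r P₁ = none := by
    unfold snd?; rw [hP₁]; rfl
  have f22 : snd? D.r P₂ = some Q₂ := snd?_eq_some.2 hP₂
  have p1 : D.push₁ X = Finsupp.single Q₁ m := by
    show pushO (fst? D.r) X = _
    rw [hXdef, map_add, pushO_single_of_eq _ f11, pushO_single_of_none _ f12, add_zero]
  have p2 : D.push₂ X = Finsupp.single Q₂ m := by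
    show pushO (snd? D.r) X = _
    rw [hXdef, map_add, pushO_single_of_none _ f21, pushO_single_of_eq _ f22, zero_add]
  have d1 : Divisor.degree (D.push₁ X) = m := by
    rw [p1, Divisor.degree_single, hd₁, Nat.cast_one, mul_one]
  have d2 : Divisor.degree (D.push₂ X) = m := by
    rw [p2, Divisor.degree_single, hd₂, Nat.cast_one, mul_one]
  have h₁ : 2 * (g₁ : ℤ) - 2 < Divisor.degree (D.push₁ X) + ∑ c, (annDegD D c Δ - a c - 1) := by
    rw [d1, hm]
    have := le_abs_self B₁
    have := abs_nonneg B₂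
    rw [hB₁] at *
    linarith
  have h₂ : 2 * (g₂ : ℤ) - 2 < Divisor.degree (D.push₂ X) + ∑ c, (a c - 1) := by
    rw [d2, hm]
    have := le_abs_self B₂
    have := abs_nonneg B₁
    rw [hB₂] at *
    linarith
  obtain ⟨f, hfW, m1, m2, hval⟩ := exists_section D C hG hΔ hX a ha h₁ h₂
  have hann : ∀ c, D.annDiv c f = -annPart D c Δ := fun c =>
    annDiv_eq_neg_of_node_value D hX hG (ha c) hfW m1 m2 one_ne_zero (hval c).1 (hval c).2
  have hf0 : f ≠ 0 := by
    rintro rfl
    have := (hval c₀).1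
    rw [D.nod.V₁.redF_zero, zero_mul] at this
    exact one_ne_zero (this.eq_zero_of_eq_zero)
  refine ⟨f, hf0, fun P hP => ?_⟩
  obtain ⟨c, hc⟩ := exists_ann_of_r_eq_none D hP
  have h := congrArg (fun E : Divisor L F => E P) (hann c)
  simp only [Finsupp.neg_apply] at h
  rw [D.annDiv_apply_of_mem hc, annPart_apply_of_mem D hc] at h
  rw [Finsupp.add_apply, divOf_apply', h, add_neg_cancel]

end Count

end Fermat.Agent.S15lib.LocN
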