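/-
S15lib / LocN / Ann / Rep  (helper4)  — Project E, block LOCN, step (5): GOOD REPRESENTATIVES.

`D : Ann.AnnDatum`, `C : NodalCtx D.nod g g₁ g₂`, `D.GlueAnn`, `S : NSym D G` with `M.AnnSym D S`.

* `GoodRep D n x`  : a representative `(E, f)` of the `n`-torsion class `x`: `E` of degree zero
                     supported on the smooth locus, `div f = n E`;
* `exists_goodRep` : every `G`-fixed `n`-torsion class has one, provided the `G`-fixed constants have
                     valuations in `|pi c|^ℤ` (stable divisor, fixed annulus constants, moving lemma);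
* `NormRep D n x`  : a good representative whose `f` is a unit of the first component with order `0`
                     at all node points;
* `exists_normRep` : a good representative whose push-forward to the first component has degree
                     divisible by the number `s` of nodes can be normalised (uniform coordinate `z`,
                     uniform thickness `|pi|`): all node orders are equal to `m`, `s m = - n deg`.
-/
import Fermat.Agent.S15lib.LocN.Ann.Move
import Fermat.Agent.S44lib.M.Sides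
import Fermat.Agent.S44lib.Kap.CMap
import Fermat.Agent.S36lib.J.ClassDescent

set_option autoImplicit false
set_option linter.unusedSectionVars false
set_option linter.style.haveILetI false

noncomputable section

namespace Fermat.Agent.S15lib.LocN

open AlgebraicCurve Module
open Fermat.Agent.LSb Fermat.Agent.S18lib Fermat.Agent.S33lib Fermat.Agent.S33lib.N
open Fermat.Agent.S44lib Fermat.Agent.S44lib.Ann Fermat.Agent.S19lib.C

variable {L : Type*} [Field L] {A : ValuationSubring L}
variable {F : Type*} [Field F] [Algebra L F] [HasPrincipalDivisors L F]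
variable {F₁ F₂ : Type*} [Field F₁] [Field F₂]
variable [Algebra (IsLocalRing.ResidueField A) F₁] [Algebra (IsLocalRing.ResidueField A) F₂]
variable [HasPrincipalDivisors (IsLocalRing.ResidueField A) F₁]
  [HasPrincipalDivisors (IsLocalRing.ResidueField A) F₂]

local notation "k" => IsLocalRing.ResidueField A

/-! ### good representatives -/

/-- a good representative of an `n`-torsion class -/
structure GoodRep (D : AnnDatum A F F₁ F₂) (n : ℕ) (x : Pic0 L F) where
  /-- the divisor -/
  E : Divisor.degZero (K := L) (F := F)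
  /-- the Kummer function -/
  f : F
  mk_E : Pic0.mk E = x
  smooth : D.SmoothSupp (E : Divisor L F)
  f_ne : f ≠ 0
  ord_f : ∀ P : Place L F, P.ord f = (n : ℤ) * (E : Divisor L F) P

namespace GoodRep

variable {D : AnnDatum A F F₁ F₂} {n : ℕ} {x : Pic0 L F} (R : GoodRep D n x)

/-- no zero or pole in the annuli -/
theorem ord_f_of_ann {c : Fin D.nod.s} {P : Place L F} (hP : D.ann P = some c) : P.ord R.f = 0 := by
  rw [R.ord_f]
  have : (R.E : Divisor L F) P = 0 := by
    by_contra h
    exact R.smooth P h (r_eq_none_of_ann D hP)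
  rw [this, mul_zero]

theorem annDiv_f (c : Fin D.nod.s) : D.annDiv c R.f = 0 := by
  ext P
  by_cases hP : D.ann P = some c
  · rw [D.annDiv_apply_of_mem hP, R.ord_f_of_ann hP]; rfl
  · unfold AnnDatum.annDiv
    rw [Finsupp.filter_apply_neg (fun P => D.ann P = some c) _ hP]; rfl

end GoodRep

/-! ### the annulus constants -/

section Cst

variable (D : AnnDatum A F F₁ F₂)

/-- the valuation of the annulus constant of `Move.lean` is that of the region constant -/
theorem val_annCst (c : Fin D.nod.s) (Δ : Divisor L F) :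
    A.valuation (annCst D c Δ) = A.valuation ((M.annReg₁ D c).cst Δ) := by
  classical
  unfold annCst M.Region.cst
  rw [Finsupp.prod, map_prod, map_prod]
  have hsupp : (annPart D c Δ).support = Δ.support.filter fun P => D.ann P = some c := by
    unfold annPart
    rw [Finsupp.support_filter]
  rw [hsupp, Finset.prod_filter]
  refine Finset.prod_congr rfl fun P _ => ?_
  by_cases hP : D.ann P = some c
  · have hm : (M.annReg₁ D c).mem P := hP
    rw [if_pos hP, if_pos hm, annPart_apply_of_mem D hP, map_zpow₀, map_zpow₀, Valuation.map_neg]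
    rfl
  · have hm : ¬ (M.annReg₁ D c).mem P := hP
    rw [if_neg hP, if_neg hm, map_one]

end Cst

/-! ### existence of good representatives -/

section Exists

variable (D : AnnDatum A F F₁ F₂) {g g₁ g₂ : ℕ} (C : NodalCtx D.nod g g₁ g₂) (hG : D.GlueAnn)
variable {G : Type*} [Group G] (S : N.NSym D.toNRedDatum G) (hS : M.AnnSym D S)

include C hG hS in
/-- **every fixed torsion class has a good representative** -/
theorem exists_goodRep (P₀ : Place L F) (hP₀ : ∀ g : G, S.ρ g • P₀ = P₀)
    (hval : ∀ (c : Fin D.nod.s) (a : L), a ≠ 0 → (∀ g : G, S.hat g a = a) →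
      ∃ m : ℤ, A.valuation a = A.valuation (D.pi c) ^ m)
    {n : ℕ} {x : Pic0 L F} (hx : (n : ℤ) • x = 0) (hfix : ∀ g : G, S.ρ g • x = x) :
    Nonempty (GoodRep D n x) := by
  classical
  obtain ⟨E₀, hE₀x, hE₀st⟩ := Fermat.Agent.S36lib.J.exists_stable_divisor C.hF
    (Set.range fun g : G => S.ρ g) P₀ (by rintro _ ⟨g, rfl⟩; exact hP₀ g) x
    (by rintro _ ⟨g, rfl⟩; exact hfix g)
  -- the part in the annuli
  set Δ : Divisor L F := (E₀ : Divisor L F).filter fun P => D.r P = none with hΔdef
  have hΔ : ∀ P, Δ P ≠ 0 → D.r P = none := by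
    intro P hP
    by_contra h
    exact hP (Finsupp.filter_apply_neg (fun P => D.r P = none) _ h)
  have hΔeq : ∀ P, D.r P = none → Δ P = (E₀ : Divisor L F) P := fun P hP =>
    Finsupp.filter_apply_pos (fun P => D.r P = none) _ hP
  -- the annulus constants are fixed
  have hcst : ∀ c, (M.annReg₁ D c).cst Δ = (M.annReg₁ D c).cst (E₀ : Divisor L F) := by
    intro c
    have h1 : (M.annReg₁ D c).cst ((E₀ : Divisor L F) - Δ) = 1 := by
      apply M.Region.cst_eq_one_of_forall
      intro P hP
      have hP' : D.ann P = some c := hP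
      rw [Finsupp.sub_apply, hΔeq P (r_eq_none_of_ann D hP'), sub_self]
    rw [M.Region.cst_sub (M.annReg₁_noZero D c)] at h1
    have h0 := M.Region.cst_ne_zero (M.annReg₁_noZero D c) Δ
    field_simp at h1
    exact h1.symm
  have ha : ∀ c, ∃ a : ℤ, A.valuation (annCst D c Δ) = A.valuation (D.pi c) ^ a := by
    intro c
    rw [val_annCst, hcst]
    refine hval c _ (M.Region.cst_ne_zero (M.annReg₁_noZero D c) _) fun g => ?_
    exact M.Region.cst_fixed (hS.sym₁ c g) (hE₀st _ ⟨g, rfl⟩)
  choose a ha using ha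
  obtain ⟨f', hf'0, hf'⟩ := exists_move D C hG hΔ a ha
  -- the moved divisor
  have hdeg : Divisor.degree ((E₀ : Divisor L F) + divOf (K := L) f') = 0 := by
    rw [map_add, degree_divOf, add_zero]
    exact E₀.2
  set E : Divisor.degZero (K := L) (F := F) := ⟨(E₀ : Divisor L F) + divOf (K := L) f', hdeg⟩
    with hE
  have hEx : Pic0.mk E = x := by
    rw [← hE₀x]
    symm
    refine (QuotientAddGroup.eq).2 ?_
    rw [AddSubgroup.mem_addSubgroupOf]
    have : ((-E₀ + E : Divisor.degZero (K := L) (F := F)) : Divisor L F) = divOf (K := L) f' := by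
      simp [hE]
    rw [this]
    exact ⟨f', hf'0, fun P => by rw [divOf_apply']⟩
  have hsm : D.SmoothSupp (E : Divisor L F) := by
    intro P hP hr
    apply hP
    show ((E₀ : Divisor L F) + divOf (K := L) f') P = 0
    have := hf' P hr
    rw [Finsupp.add_apply, hΔeq P hr] at this
    rw [Finsupp.add_apply]
    exact this
  -- the Kummer function
  have h1 : Pic0.mk ((n : ℤ) • E) = 0 := by
    have : Pic0.mk ((n : ℤ) • E) = (n : ℤ) • Pic0.mk E := rfl
    rw [this, hEx, hx]
  have h2 := (QuotientAddGroup.eq_zero_iff _).1 h1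
  rw [AddSubgroup.mem_addSubgroupOf] at h2
  obtain ⟨f, hf0, hf⟩ := h2
  exact ⟨⟨E, f, hEx, hsm, hf0, fun P => by rw [← hf P]; simp⟩⟩

end Exists

/-! ### normalised representatives -/

/-- a good representative whose Kummer function is a unit of the first component with order `0` at
all node points -/
structure NormRep (D : AnnDatum A F F₁ F₂) (n : ℕ) (x : Pic0 L F) extends GoodRep D n x where
  slope₁ : ∀ c, D.Slope₁ c f 1 0

section Norm

variable {D : AnnDatum A F F₁ F₂} {g g₁ g₂ : ℕ} (C : NodalCtx D.nod g g₁ g₂) (hG : D.GlueAnn)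
variable {n : ℕ} {x : Pic0 L F}

include hG in
/-- unit propagation: a normalised representative is a unit of the second component as well -/
theorem NormRep.slope₂ (R : NormRep D n x) (c : Fin D.nod.s) : D.Slope₂ c R.f 1 0 :=
  D.slope₂_of_unit₁ hG (R.slope₁ c) fun _ hQ => R.toGoodRep.ord_f_of_ann hQ

theorem zpow_inj_of_lt_one {Γ : Type*} [LinearOrderedCommGroupWithZero Γ] {w : Γ} (h0 : w ≠ 0)
    (h1 : w < 1) {a b : ℤ} (h : w ^ a = w ^ b) : a = b := by
  have hpos : 0 < w := zero_lt_iff.2 h0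
  exact zpow_right_injective₀ hpos h1.ne h

include hG in
/-- **all node orders of a good representative are equal** (uniform thickness) -/
theorem GoodRep.exists_slopes (R : GoodRep D n x)
    (hpi : ∀ c c', A.valuation (D.pi c) = A.valuation (D.pi c')) (c₀ : Fin D.nod.s) :
    ∃ (a₁ : L) (m : ℤ), ∀ c, D.Slope₁ c R.f a₁ m := by
  obtain ⟨a₁, m₀, h1⟩ := D.exists_Slope₁ R.f_ne c₀
  obtain ⟨a₂, m₂, h2⟩ := D.exists_Slope₂ R.f_ne c₀
  have S1 : ∀ c, D.Slope₁ c R.f a₁
      ((D.nod.x₁ c).ord (D.nod.V₁.redF ((algebraMap L F a₁)⁻¹ * R.f))) :=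
    fun c => ⟨h1.1, h1.2.1, h1.2.2.1, rfl⟩
  have S2 : ∀ c, D.Slope₂ c R.f a₂
      ((D.nod.x₂ c).ord (D.nod.V₂.redF ((algebraMap L F a₂)⁻¹ * R.f))) :=
    fun c => ⟨h2.1, h2.2.1, h2.2.2.1, rfl⟩
  have hdeg : ∀ c, D.annDeg c R.f = 0 := fun c => by
    unfold AnnDatum.annDeg
    rw [R.annDiv_f, Finsupp.sum_zero_index]
  have hrad : ∀ c, D.radProd c R.f = 1 := fun c => by
    unfold AnnDatum.radProd
    rw [R.annDiv_f, Finsupp.prod_zero_index]
  have law := fun c => D.slopeLaw_of_glueAnn hG R.f R.f_ne c a₁ a₂ _ _ (S1 c) (S2 c)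
  have ha₂ : A.valuation a₂ ≠ 0 := (Valuation.ne_zero_iff _).2 h2.1
  have hm₂ : ∀ c, (D.nod.x₂ c).ord (D.nod.V₂.redF ((algebraMap L F a₂)⁻¹ * R.f)) =
      (D.nod.x₂ c₀).ord (D.nod.V₂.redF ((algebraMap L F a₂)⁻¹ * R.f)) := by
    intro c
    have e1 := (law c).2
    have e2 := (law c₀).2
    rw [hrad, mul_one] at e1 e2
    rw [e1, hpi c c₀] at e2
    have e3 := mul_left_cancel₀ ha₂ e2
    exact zpow_inj_of_lt_one ((Valuation.ne_zero_iff _).2 (D.pi_ne_zero c₀)) (D.pi_lt_one c₀) e3
  refine ⟨a₁, (D.nod.x₁ c₀).ord (D.nod.V₁.redF ((algebraMap L F a₁)⁻¹ * R.f)), fun c => ?_⟩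
  have e1 := (law c).1
  have e2 := (law c₀).1
  rw [hdeg, hm₂ c] at e1
  rw [hdeg] at e2
  have : (D.nod.x₁ c).ord (D.nod.V₁.redF ((algebraMap L F a₁)⁻¹ * R.f)) =
      (D.nod.x₁ c₀).ord (D.nod.V₁.redF ((algebraMap L F a₁)⁻¹ * R.f)) := by linarith
  rw [← this]
  exact S1 c

include C hG in
/-- **normalisation**: if the number of nodes divides the degree of the push-forward to the first
component, the class has a normalised representative -/
theorem GoodRep.exists_normRep (R : GoodRep D n x) (hz : ∀ c c', D.z c = D.z c')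
    (hpi : ∀ c c', A.valuation (D.pi c) = A.valuation (D.pi c'))
    (hdvd : (D.nod.s : ℤ) ∣ Divisor.degree (D.push₁ (R.E : Divisor L F))) :
    Nonempty (NormRep D n x) := by
  classical
  have hs := C.s_pos
  set c₀ : Fin D.nod.s := ⟨0, hs⟩ with hc₀
  obtain ⟨a₁, m, hS⟩ := R.exists_slopes hG hpi c₀
  have ha₁ : a₁ ≠ 0 := (hS c₀).1
  have hA₁ : (algebraMap L F a₁)⁻¹ ≠ 0 := inv_ne_zero ((map_ne_zero _).2 ha₁)
  -- the sum of the node orders
  have hord : ∀ P : Place L F, P.ord ((algebraMap L F a₁)⁻¹ * R.f) =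
      (n : ℤ) * (R.E : Divisor L F) P := by
    intro P
    rw [P.ord_mul hA₁ R.f_ne, P.ord_inv, ord_algebraMap_eq_zero P ha₁, neg_zero, zero_add, R.ord_f]
  have hsum := Kap.sum_ord_nodes C.hF₁ D.D₁ D.nod.x₁ C.x₁_injective
    (fun Q hQ => Kap.good₁_of_ne D.toNRedDatum hQ) (Kap.not_good₁ D.toNRedDatum) hord (hS c₀).2.2.1
  have hsum' : (D.nod.s : ℤ) * m = -((n : ℤ) * Divisor.degree (D.push₁ (R.E : Divisor L F))) := by
    have e : ∑ c : Fin D.nod.s, (D.nod.x₁ c).ord (D.D₁.G.redF ((algebraMap L F a₁)⁻¹ * R.f)) =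
        (D.nod.s : ℤ) * m := by
      have e' : ∀ c ∈ (Finset.univ : Finset (Fin D.nod.s)),
          (D.nod.x₁ c).ord (D.D₁.G.redF ((algebraMap L F a₁)⁻¹ * R.f)) = m :=
        fun c _ => (hS c).2.2.2
      rw [Finset.sum_congr rfl e']
      simp
    rw [← e]
    exact hsum
  obtain ⟨d', hd'⟩ := hdvd
  have hs0 : (D.nod.s : ℤ) ≠ 0 := by exact_mod_cast hs.ne'
  have hm : m = (n : ℤ) * (-d') := by
    apply mul_left_cancel₀ hs0
    rw [hsum', hd']
    ring
  -- the uniform coordinate
  set z₀ : F := D.z c₀ with hz₀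
  have hz₀0 : z₀ ≠ 0 := D.z_ne_zero c₀
  have hz₀ord : ∀ P, D.r P = none → P.ord z₀ = 0 := by
    intro P hP
    obtain ⟨c, hc⟩ := exists_ann_of_r_eq_none D hP
    rw [hz₀, hz c₀ c]
    exact D.ord_z_eq_zero hc
  -- the new representative
  set Z : Divisor.degZero (K := L) (F := F) := ⟨divOf (K := L) z₀, degree_divOf z₀⟩ with hZ
  set E' : Divisor.degZero (K := L) (F := F) := R.E - (-d') • Z with hE'
  set f' : F := (algebraMap L F a₁)⁻¹ * R.f * z₀ ^ (-m) with hf'
  have hE'coe : ∀ P, (E' : Divisor L F) P = (R.E : Divisor L F) P - (-d') * P.ord z₀ := by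
    intro P
    rw [hE', AddSubgroup.coe_sub, AddSubgroup.coe_zsmul, Finsupp.sub_apply, Finsupp.smul_apply,
      smul_eq_mul]
    show _ - _ * (divOf (K := L) z₀) P = _
    rw [divOf_apply']
  refine ⟨⟨⟨E', f', ?_, ?_, ?_, ?_⟩, ?_⟩⟩
  · -- the class
    rw [← R.mk_E]
    refine (QuotientAddGroup.eq).2 ?_
    rw [AddSubgroup.mem_addSubgroupOf]
    have : ((-E' + R.E : Divisor.degZero (K := L) (F := F)) : Divisor L F) =
        (-d') • divOf (K := L) z₀ := by
      simp [hE', hZ]
    rw [this]
    refine ⟨z₀ ^ (-d'), zpow_ne_zero _ hz₀0, fun P => ?_⟩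
    rw [P.ord_zpow, Finsupp.smul_apply, divOf_apply', smul_eq_mul]
  · -- smooth support
    intro P hP hr
    apply hP
    rw [hE'coe, hz₀ord P hr, mul_zero, sub_zero]
    by_contra h
    exact R.smooth P h hr
  · exact mul_ne_zero (mul_ne_zero hA₁ R.f_ne) (zpow_ne_zero _ hz₀0)
  · intro P
    rw [hf', P.ord_mul (mul_ne_zero hA₁ R.f_ne) (zpow_ne_zero _ hz₀0), hord, P.ord_zpow, hE'coe, hm]
    ring
  · -- the slopes
    intro c
    have h1 : GSlope D.nod.V₁ (D.nod.x₁ c) ((algebraMap L F a₁)⁻¹) a₁⁻¹ 0 := by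
      have := GSlope.const (G := D.nod.V₁) (x := D.nod.x₁ c) (inv_ne_zero ha₁)
      rwa [map_inv₀] at this
    have h2 := D.slope₁_iff.1 (hS c)
    have h3 : GSlope D.nod.V₁ (D.nod.x₁ c) z₀ 1 1 := by
      have := D.slope₁_iff.1 (D.slope₁_z c)
      rwa [← hz c₀ c] at this
    refine D.slope₁_iff.2 (GSlope.congr ((h1.mul h2).mul (h3.zpow (-m))) ?_ ?_)
    · rw [inv_mul_cancel₀ ha₁, one_zpow, mul_one]
    · ring

end Norm

end Fermat.Agent.S15lib.LocN
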