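/-
S15lib / LocN / Ann / Twist  (helper4)  — Project E, block LOCN, step (5): THE TWIST.

For a normalised representative `(E, f)` of an `n`-torsion class (`Rep.lean`) on a nodal datum whose
two components have GENUS ZERO:

* the reductions `φᵢ = redᵢ f` have divisors `n · pushᵢ E` exactly (local conservation at the smooth
  points, order `0` at the node points), so `deg pushᵢ E = 0` and `pushᵢ E = div ψᵢ`;
* `Twist D n x` : a normalised representative together with `ψ₁, ψ₂` and their (nonzero) node values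
  `v₁ c, v₂ c`;  the twist is `t c = v₁ c / v₂ c`, and `(t c)ⁿ` does not depend on `c` (`pow_eq`);
* `Twist.sub`   : the twist data of a difference.
-/
import Fermat.Agent.S15lib.LocN.Ann.Rep

set_option autoImplicit false
set_option linter.unusedSectionVars false
set_option linter.style.haveILetI false

noncomputable section

namespace Fermat.Agent.S15lib.LocN

open AlgebraicCurve Module
open Fermat.Agent.LSb Fermat.Agent.S18lib Fermat.Agent.S33lib Fermat.Agent.S33lib.N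
open Fermat.Agent.S44lib Fermat.Agent.S44lib.Ann Fermat.Agent.S19lib.C

/-! ### genus zero -/

section Genus0

variable {K E : Type*} [Field K] [Field E] [Algebra K E]

/-- on a curve of genus zero every divisor of degree zero is principal -/
theorem exists_ord_eq_of_genus_zero (hE : IsCurveOfGenus K E 0) (X : Divisor K E)
    (hX : Divisor.degree X = 0) : ∃ ψ : E, ψ ≠ 0 ∧ ∀ Q : Place K E, Q.ord ψ = X Q := by
  classical
  haveI := hE.hasPrincipalDivisors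
  haveI := hE.finiteDimensional (-X)
  have h1 := hE.riemann_le (-X)
  rw [map_neg, hX] at h1
  have hpos : 0 < Module.finrank K (riemannRochSpace (-X)) := by
    have : (1 : ℤ) ≤ Module.finrank K (riemannRochSpace (-X)) := by
      simpa using h1
    exact_mod_cast this
  obtain ⟨⟨ψ, hψ⟩, hne⟩ := Module.finrank_pos_iff_exists_ne_zero.1 hpos
  have hψ0 : ψ ≠ 0 := fun h => hne (Subtype.ext h)
  refine ⟨ψ, hψ0, ?_⟩
  rw [S18lib.Cech.mem_rr_of_ne hψ0] at hψ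
  -- `div ψ - X ≥ 0` of degree `0`
  set Y : Divisor K E := divOf (K := K) ψ - X with hY
  have hYnn : ∀ Q, 0 ≤ Y Q := fun Q => by
    have := hψ Q
    rw [Finsupp.neg_apply, neg_neg] at this
    rw [hY, Finsupp.sub_apply, divOf_apply']
    linarith
  have hYdeg : Divisor.degree Y = 0 := by rw [hY, map_sub, degree_divOf, hX, sub_zero]
  rw [degree_eq_sum_of_deg_one hE.deg_eq_one] at hYdeg
  have hY0 := finsupp_eq_zero_of_sum Y hYnn hYdeg
  intro Q
  have := hY0 Q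
  rw [hY, Finsupp.sub_apply, divOf_apply'] at this
  linarith

/-- a function without zeros and poles is a nonzero constant -/
theorem exists_const_of_ord_zero {g : ℕ} (hE : IsCurveOfGenus K E g) {y : E} (hy : y ≠ 0)
    (h : ∀ v : Place K E, v.ord y = 0) : ∃ c : K, c ≠ 0 ∧ y = algebraMap K E c := by
  have hmem : y ∈ riemannRochSpace (0 : Divisor K E) := by
    rw [S18lib.Cech.mem_rr_of_ne hy]
    intro v
    rw [h v]
    simp
  rw [hE.riemannRochSpace_zero] at hmem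
  obtain ⟨c, hc⟩ := Algebra.mem_bot.1 ((Subalgebra.mem_toSubmodule _).1 hmem)
  refine ⟨c, ?_, hc.symm⟩
  rintro rfl
  rw [map_zero] at hc
  exact hy hc.symm

end Genus0

variable {L : Type*} [Field L] {A : ValuationSubring L}
variable {F : Type*} [Field F] [Algebra L F] [HasPrincipalDivisors L F]
variable {F₁ F₂ : Type*} [Field F₁] [Field F₂]
variable [Algebra (IsLocalRing.ResidueField A) F₁] [Algebra (IsLocalRing.ResidueField A) F₂]
variable [HasPrincipalDivisors (IsLocalRing.ResidueField A) F₁]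
  [HasPrincipalDivisors (IsLocalRing.ResidueField A) F₂]

local notation "k" => IsLocalRing.ResidueField A

/-! ### the reductions of a normalised representative -/

section Red

variable {D : AnnDatum A F F₁ F₂} {g g₁ g₂ : ℕ} (C : NodalCtx D.nod g g₁ g₂) (hG : D.GlueAnn)
variable {n : ℕ} {x : Pic0 L F} (R : NormRep D n x)

include C

theorem NormRep.red₁_ne : D.nod.V₁.redF R.f ≠ 0 :=
  have c₀ : Fin D.nod.s := ⟨0, C.s_pos⟩
  (GSlope.redF_ne_zero_of_one (D.slope₁_iff.1 (R.slope₁ c₀))).1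

theorem NormRep.mem₁ : R.f ∈ D.nod.V₁.O := D.nod.V₁.mem_of_redF_ne_zero (R.red₁_ne C)

omit C in
theorem NormRep.ord_node₁ (c : Fin D.nod.s) : (D.nod.x₁ c).ord (D.nod.V₁.redF R.f) = 0 :=
  (GSlope.redF_ne_zero_of_one (D.slope₁_iff.1 (R.slope₁ c))).2

include hG in
theorem NormRep.red₂_ne : D.nod.V₂.redF R.f ≠ 0 :=
  have c₀ : Fin D.nod.s := ⟨0, C.s_pos⟩
  (GSlope.redF_ne_zero_of_one (D.slope₂_iff.1 (R.slope₂ hG c₀))).1

include hG in
theorem NormRep.mem₂ : R.f ∈ D.nod.V₂.O := D.nod.V₂.mem_of_redF_ne_zero (R.red₂_ne C hG)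

omit C in
include hG in
theorem NormRep.ord_node₂ (c : Fin D.nod.s) : (D.nod.x₂ c).ord (D.nod.V₂.redF R.f) = 0 :=
  (GSlope.redF_ne_zero_of_one (D.slope₂_iff.1 (R.slope₂ hG c))).2

/-- **the divisor of the first reduction** -/
theorem NormRep.ord_red₁ (Q : Place k F₁) :
    Q.ord (D.nod.V₁.redF R.f) = (n : ℤ) * D.push₁ (R.E : Divisor L F) Q := by
  by_cases hQ : ∃ c, Q = D.nod.x₁ c
  · obtain ⟨c, rfl⟩ := hQ
    rw [R.ord_node₁]
    have : D.push₁ (R.E : Divisor L F) (D.nod.x₁ c) = 0 :=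
      NB.pushO_apply_eq_zero D.D₁.r _ (Kap.not_good₁ D.toNRedDatum c)
    rw [this, mul_zero]
  · push Not at hQ
    exact Kap.ord_redF_eq_of_good D.D₁ R.ord_f (R.red₁_ne C) (Kap.good₁_of_ne D.toNRedDatum hQ)

include hG in
/-- **the divisor of the second reduction** -/
theorem NormRep.ord_red₂ (Q : Place k F₂) :
    Q.ord (D.nod.V₂.redF R.f) = (n : ℤ) * D.push₂ (R.E : Divisor L F) Q := by
  by_cases hQ : ∃ c, Q = D.nod.x₂ c
  · obtain ⟨c, rfl⟩ := hQ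
    rw [R.ord_node₂ hG]
    have : D.push₂ (R.E : Divisor L F) (D.nod.x₂ c) = 0 :=
      NB.pushO_apply_eq_zero D.D₂.r _ (Kap.not_good₂ D.toNRedDatum c)
    rw [this, mul_zero]
  · push Not at hQ
    exact Kap.ord_redF_eq_of_good D.D₂ R.ord_f (R.red₂_ne C hG) (Kap.good₂_of_ne D.toNRedDatum hQ)

theorem NormRep.degree_push₁ (hn : n ≠ 0) : Divisor.degree (D.push₁ (R.E : Divisor L F)) = 0 := by
  have e : divOf (K := k) (D.nod.V₁.redF R.f) = (n : ℤ) • D.push₁ (R.E : Divisor L F) := by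
    ext Q
    rw [divOf_apply', R.ord_red₁ C, Finsupp.smul_apply, smul_eq_mul]
  have h := congrArg Divisor.degree e
  rw [degree_divOf, map_zsmul, smul_eq_mul] at h
  have hn' : (n : ℤ) ≠ 0 := by exact_mod_cast hn
  exact (mul_eq_zero.1 h.symm).resolve_left hn'

include hG in
theorem NormRep.degree_push₂ (hn : n ≠ 0) : Divisor.degree (D.push₂ (R.E : Divisor L F)) = 0 := by
  have e : divOf (K := k) (D.nod.V₂.redF R.f) = (n : ℤ) • D.push₂ (R.E : Divisor L F) := by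
    ext Q
    rw [divOf_apply', R.ord_red₂ C hG, Finsupp.smul_apply, smul_eq_mul]
  have h := congrArg Divisor.degree e
  rw [degree_divOf, map_zsmul, smul_eq_mul] at h
  have hn' : (n : ℤ) ≠ 0 := by exact_mod_cast hn
  exact (mul_eq_zero.1 h.symm).resolve_left hn'

end Red

/-! ### the twist data -/

/-- a normalised representative with `n`-th roots `ψᵢ` of its reductions and their node values -/
structure Twist (D : AnnDatum A F F₁ F₂) (n : ℕ) (x : Pic0 L F) extends NormRep D n x where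
  /-- `div ψ₁ = push₁ E` -/
  ψ₁ : F₁
  /-- `div ψ₂ = push₂ E` -/
  ψ₂ : F₂
  /-- the node values of `ψ₁` -/
  v₁ : Fin D.nod.s → IsLocalRing.ResidueField A
  /-- the node values of `ψ₂` -/
  v₂ : Fin D.nod.s → IsLocalRing.ResidueField A
  ψ₁_ne : ψ₁ ≠ 0
  ψ₂_ne : ψ₂ ≠ 0
  ord₁ : ∀ Q : Place (IsLocalRing.ResidueField A) F₁, Q.ord ψ₁ = D.push₁ (E : Divisor L F) Q
  ord₂ : ∀ Q : Place (IsLocalRing.ResidueField A) F₂, Q.ord ψ₂ = D.push₂ (E : Divisor L F) Q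
  val₁ : ∀ c, HasValueAt (D.nod.x₁ c) ψ₁ (v₁ c)
  val₂ : ∀ c, HasValueAt (D.nod.x₂ c) ψ₂ (v₂ c)

section TwistSec

variable {D : AnnDatum A F F₁ F₂} {g : ℕ} (C : NodalCtx D.nod g 0 0) (hG : D.GlueAnn)
variable {n : ℕ} {x y : Pic0 L F}

theorem Twist.ord_node₁ (T : Twist D n x) (c : Fin D.nod.s) : (D.nod.x₁ c).ord T.ψ₁ = 0 := by
  rw [T.ord₁]
  exact NB.pushO_apply_eq_zero D.D₁.r _ (Kap.not_good₁ D.toNRedDatum c)

theorem Twist.ord_node₂ (T : Twist D n x) (c : Fin D.nod.s) : (D.nod.x₂ c).ord T.ψ₂ = 0 := by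
  rw [T.ord₂]
  exact NB.pushO_apply_eq_zero D.D₂.r _ (Kap.not_good₂ D.toNRedDatum c)

theorem Twist.v₁_ne (T : Twist D n x) (c : Fin D.nod.s) : T.v₁ c ≠ 0 :=
  AnnDatum.value_ne_zero_of_ord_eq_zero (T.val₁ c) T.ψ₁_ne (T.ord_node₁ c)

theorem Twist.v₂_ne (T : Twist D n x) (c : Fin D.nod.s) : T.v₂ c ≠ 0 :=
  AnnDatum.value_ne_zero_of_ord_eq_zero (T.val₂ c) T.ψ₂_ne (T.ord_node₂ c)

include C hG in
/-- **twist data exist** (genus zero components) -/
theorem NormRep.exists_twist (R : NormRep D n x) (hn : n ≠ 0) : ∃ T : Twist D n x, T.toNormRep = R := by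
  obtain ⟨ψ₁, hψ₁0, hψ₁⟩ := exists_ord_eq_of_genus_zero C.hF₁ _ (R.degree_push₁ C hn)
  obtain ⟨ψ₂, hψ₂0, hψ₂⟩ := exists_ord_eq_of_genus_zero C.hF₂ _ (R.degree_push₂ C hG hn)
  have hv₁ : ∀ c, ∃ v : k, HasValueAt (D.nod.x₁ c) ψ₁ v := fun c => by
    refine exists_hasValueAt (C.hF₁.deg_eq_one _) ((D.nod.x₁ c).adicValuation_le_one_iff.2 (Or.inr ?_))
    rw [hψ₁]
    exact (NB.pushO_apply_eq_zero D.D₁.r _ (Kap.not_good₁ D.toNRedDatum c)).ge
  have hv₂ : ∀ c, ∃ v : k, HasValueAt (D.nod.x₂ c) ψ₂ v := fun c => by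
    refine exists_hasValueAt (C.hF₂.deg_eq_one _) ((D.nod.x₂ c).adicValuation_le_one_iff.2 (Or.inr ?_))
    rw [hψ₂]
    exact (NB.pushO_apply_eq_zero D.D₂.r _ (Kap.not_good₂ D.toNRedDatum c)).ge
  choose v₁ hv₁ using hv₁
  choose v₂ hv₂ using hv₂
  exact ⟨⟨R, ψ₁, ψ₂, v₁, v₂, hψ₁0, hψ₂0, hψ₁, hψ₂, hv₁, hv₂⟩, rfl⟩

include C hG in
/-- **the `n`-th power of the twist does not depend on the node** -/
theorem Twist.pow_eq (T : Twist D n x) :
    ∃ γ : k, γ ≠ 0 ∧ ∀ c, T.v₁ c ^ n = γ * T.v₂ c ^ n := by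
  set φ₁ := D.nod.V₁.redF T.f with hφ₁
  set φ₂ := D.nod.V₂.redF T.f with hφ₂
  have h1 : φ₁ ≠ 0 := T.toNormRep.red₁_ne C
  have h2 : φ₂ ≠ 0 := T.toNormRep.red₂_ne C hG
  -- the constants
  obtain ⟨b₁, hb₁0, hb₁⟩ := exists_const_of_ord_zero C.hF₁
    (y := φ₁ * (T.ψ₁ ^ n)⁻¹) (mul_ne_zero h1 (inv_ne_zero (pow_ne_zero n T.ψ₁_ne))) (fun Q => by
      rw [Q.ord_mul h1 (inv_ne_zero (pow_ne_zero n T.ψ₁_ne)), Q.ord_inv, S18lib.Cech.ord_pow,
        T.toNormRep.ord_red₁ C, T.ord₁]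
      ring)
  obtain ⟨b₂, hb₂0, hb₂⟩ := exists_const_of_ord_zero C.hF₂
    (y := φ₂ * (T.ψ₂ ^ n)⁻¹) (mul_ne_zero h2 (inv_ne_zero (pow_ne_zero n T.ψ₂_ne))) (fun Q => by
      rw [Q.ord_mul h2 (inv_ne_zero (pow_ne_zero n T.ψ₂_ne)), Q.ord_inv, S18lib.Cech.ord_pow,
        T.toNormRep.ord_red₂ C hG, T.ord₂]
      ring)
  have e₁ : φ₁ = algebraMap k F₁ b₁ * T.ψ₁ ^ n := by
    rw [← hb₁, mul_assoc, inv_mul_cancel₀ (pow_ne_zero n T.ψ₁_ne), mul_one]
  have e₂ : φ₂ = algebraMap k F₂ b₂ * T.ψ₂ ^ n := by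
    rw [← hb₂, mul_assoc, inv_mul_cancel₀ (pow_ne_zero n T.ψ₂_ne), mul_one]
  refine ⟨b₂ / b₁, div_ne_zero hb₂0 hb₁0, fun c => ?_⟩
  -- the node values of `f` glue
  obtain ⟨α, hα₁, hα₂⟩ := hG T.f c (T.toNormRep.mem₁ C) (T.toNormRep.mem₂ C hG)
    (fun P hP => by rw [T.toGoodRep.ord_f_of_ann hP])
  have w₁ : HasValueAt (D.nod.x₁ c) φ₁ (b₁ * T.v₁ c ^ n) := by
    rw [e₁]
    exact (hasValueAt_const b₁).mul ((T.val₁ c).pow n)
  have w₂ : HasValueAt (D.nod.x₂ c) φ₂ (b₂ * T.v₂ c ^ n) := by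
    rw [e₂]
    exact (hasValueAt_const b₂).mul ((T.val₂ c).pow n)
  have q₁ := hα₁.unique w₁
  have q₂ := hα₂.unique w₂
  rw [q₁] at q₂
  field_simp
  rw [mul_comm, q₂, mul_comm]

/-- the twist data of a difference -/
def Twist.sub (T : Twist D n x) (T' : Twist D n y) : Twist D n (x - y) where
  E := T.E - T'.E
  f := T.f * T'.f⁻¹
  mk_E := by
    have h1 : Pic0.mk (T.E - T'.E) = Pic0.mk T.E - Pic0.mk T'.E := rfl
    rw [h1, T.mk_E, T'.mk_E]
  smooth := by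
    rw [AddSubgroup.coe_sub, sub_eq_add_neg]
    exact T.smooth.add T'.smooth.neg
  f_ne := mul_ne_zero T.f_ne (inv_ne_zero T'.f_ne)
  ord_f := fun P => by
    rw [P.ord_mul T.f_ne (inv_ne_zero T'.f_ne), P.ord_inv, T.ord_f, T'.ord_f, AddSubgroup.coe_sub,
      Finsupp.sub_apply]
    ring
  slope₁ := fun c => by
    have h1 := D.slope₁_iff.1 (T.slope₁ c)
    have h2 := (D.slope₁_iff.1 (T'.slope₁ c)).inv
    refine D.slope₁_iff.2 (GSlope.congr (h1.mul h2) ?_ ?_)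
    · rw [inv_one, mul_one]
    · ring
  ψ₁ := T.ψ₁ * T'.ψ₁⁻¹
  ψ₂ := T.ψ₂ * T'.ψ₂⁻¹
  v₁ := fun c => T.v₁ c * (T'.v₁ c)⁻¹
  v₂ := fun c => T.v₂ c * (T'.v₂ c)⁻¹
  ψ₁_ne := mul_ne_zero T.ψ₁_ne (inv_ne_zero T'.ψ₁_ne)
  ψ₂_ne := mul_ne_zero T.ψ₂_ne (inv_ne_zero T'.ψ₂_ne)
  ord₁ := fun Q => by
    rw [Q.ord_mul T.ψ₁_ne (inv_ne_zero T'.ψ₁_ne), Q.ord_inv, T.ord₁, T'.ord₁, AddSubgroup.coe_sub,
      map_sub, Finsupp.sub_apply]
    ring
  ord₂ := fun Q => by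
    rw [Q.ord_mul T.ψ₂_ne (inv_ne_zero T'.ψ₂_ne), Q.ord_inv, T.ord₂, T'.ord₂, AddSubgroup.coe_sub,
      map_sub, Finsupp.sub_apply]
    ring
  val₁ := fun c => (T.val₁ c).mul ((T'.val₁ c).inv (T'.v₁_ne c))
  val₂ := fun c => (T.val₂ c).mul ((T'.val₂ c).inv (T'.v₂_ne c))

end TwistSec

end Fermat.Agent.S15lib.LocN
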