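/-
S15lib / LocN / Ann / Lift  (helper4)  — Project E, block LOCN, step (5): TRIVIAL TWIST ⇒ TRIVIAL CLASS.

`Twist.mk_eq_zero` : if the node values of the two roots `ψ₁, ψ₂` of a twist datum are proportional
(`v₁ c = β · v₂ c` for all nodes `c`), then the class is zero.

Proof: multiply `ψᵢ` by sections `χᵢ` (value `1` at the nodes, zeros at the poles of `ψᵢ`) so that
`(ψ₁χ₁, βψ₂χ₂)` and `(χ₁, χ₂)` are sections of the untwisted nodal space `𝓛¹(m,0)`; lift them to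
`h₁, h₂ ∈ O ∩ L(m P₁)` (Čech input for `E = 0`).  `h₂` has no zero in the annuli (slope law), so
`z = f · (h₂/h₁)ⁿ / const` is a Kummer unit with reduction `(1,1)` whose twisted chart lattices consist
of functions without poles in the annuli; (GLUE-ann) makes them reduce into `𝓛¹(a,b)`, and the nodal
Čech core (`LSb.cech_core`) gives `z = c wⁿ`, i.e. `E = div (w h₁ / h₂)`.
-/
import Fermat.Agent.S15lib.LocN.Ann.Twist
import Fermat.Agent.LSb.Core.CechMain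

set_option autoImplicit false
set_option linter.unusedSectionVars false
set_option linter.style.haveILetI false

noncomputable section

namespace Fermat.Agent.S15lib.LocN

open AlgebraicCurve Module
open Fermat.Agent.LSb Fermat.Agent.S18lib Fermat.Agent.S33lib Fermat.Agent.S33lib.N
open Fermat.Agent.S44lib Fermat.Agent.S44lib.Ann Fermat.Agent.S19lib.C

/-! ### one curve: sections with value one at finitely many points -/

section OneCurve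

variable {K E : Type*} [Field K] [Field E] [Algebra K E]

/-- the pole part `max (-X) 0` of a divisor -/
def polePart (X : Divisor K E) : Divisor K E :=
  Finsupp.mapRange (fun n : ℤ => max (-n) 0) (by simp) X

theorem polePart_apply (X : Divisor K E) (Q : Place K E) : polePart X Q = max (-X Q) 0 :=
  Finsupp.mapRange_apply

/-- a section of `L(Y)` with value `1` at the points `x c` -/
theorem exists_section_value_one {g : ℕ} (hE : IsCurveOfGenus K E g) {s : ℕ}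
    {x : Fin s → Place K E} (hx : Function.Injective x) (Y : Divisor K E) (hY : ∀ c, Y (x c) = 0)
    (hdeg : 2 * (g : ℤ) - 2 + s < Divisor.degree Y) :
    ∃ χ : E, χ ∈ riemannRochSpace Y ∧ ∀ c, HasValueAt (x c) χ 1 := by
  obtain ⟨χ, hχ⟩ := Core.evPts_surjective hE hx Y hY hdeg (fun _ => 1)
  refine ⟨χ, χ.2, fun c => ?_⟩
  have h1 : Core.valAt (x c) (χ : E) = 1 := congrFun hχ c
  have h2 := Core.vanishAt_sub_valAt (x c) (hE.deg_eq_one _)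
    (Core.mem_of_mem_rr (le_of_eq (hY c)) χ.2)
  rw [h1] at h2
  exact h2

/-- `ψ χ ∈ L(Y)` when `div ψ = X`, `X + N ≥ 0` and `χ ∈ L(Y - N)` -/
theorem mul_mem_rr_of_ord {ψ χ : E} {X N Y : Divisor K E} (hψ0 : ψ ≠ 0)
    (hψ : ∀ Q : Place K E, Q.ord ψ = X Q) (hN : ∀ Q, 0 ≤ X Q + N Q)
    (hχ : χ ∈ riemannRochSpace (Y - N)) : ψ * χ ∈ riemannRochSpace Y := by
  by_cases hχ0 : χ = 0
  · rw [hχ0, mul_zero]
    exact Submodule.zero_mem _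
  rw [S18lib.Cech.mem_rr_of_ne (mul_ne_zero hψ0 hχ0)]
  rw [S18lib.Cech.mem_rr_of_ne hχ0] at hχ
  intro Q
  have h1 := hχ Q
  have h2 := hN Q
  rw [Finsupp.sub_apply] at h1
  rw [Q.ord_mul hψ0 hχ0, hψ]
  linarith

end OneCurve

variable {L : Type*} [Field L] {A : ValuationSubring L}
variable {F : Type*} [Field F] [Algebra L F] [HasPrincipalDivisors L F]
variable {F₁ F₂ : Type*} [Field F₁] [Field F₂]
variable [Algebra (IsLocalRing.ResidueField A) F₁] [Algebra (IsLocalRing.ResidueField A) F₂]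
variable [HasPrincipalDivisors (IsLocalRing.ResidueField A) F₁]
  [HasPrincipalDivisors (IsLocalRing.ResidueField A) F₂]

local notation "k" => IsLocalRing.ResidueField A

section Lift

variable {D : AnnDatum A F F₁ F₂} {g : ℕ} (C : NodalCtx D.nod g 0 0) (hG : D.GlueAnn)
variable {n : ℕ} {x : Pic0 L F}

/-- **no zeros in an annulus**: a function of `O` without poles in the annulus `c` whose two
reductions have nonzero values at the node `c` has no zeros in the annulus `c` -/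
theorem ord_eq_zero_of_node_values (hG : D.GlueAnn) {c : Fin D.nod.s} {t : F}
    (hnn : ∀ P, D.ann P = some c → 0 ≤ P.ord t) {α₁ α₂ : k} (hα₁ : α₁ ≠ 0) (hα₂ : α₂ ≠ 0)
    (h1 : HasValueAt (D.nod.x₁ c) (D.nod.V₁.redF t) α₁)
    (h2 : HasValueAt (D.nod.x₂ c) (D.nod.V₂.redF t) α₂) :
    ∀ P, D.ann P = some c → P.ord t = 0 := by
  have ht0 : t ≠ 0 := by
    rintro rfl
    rw [D.nod.V₁.redF_zero] at h1
    exact hα₁ (h1.eq_zero_of_eq_zero)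
  have S1 : D.Slope₁ c t 1 0 := by
    have := GSlope.of_redF_ne_zero (G := D.nod.V₁) (x := D.nod.x₁ c) (h1.ne_zero hα₁)
    rwa [h1.ord_eq_zero hα₁] at this
  have S2 : D.Slope₂ c t 1 0 := by
    have := GSlope.of_redF_ne_zero (G := D.nod.V₂) (x := D.nod.x₂ c) (h2.ne_zero hα₂)
    rwa [h2.ord_eq_zero hα₂] at this
  obtain ⟨hdeg, -⟩ := D.slopeLaw_of_glueAnn hG t ht0 c 1 1 0 0 S1 S2
  have hnn' : ∀ P, 0 ≤ D.annDiv c t P := by
    intro P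
    by_cases hP : D.ann P = some c
    · rw [D.annDiv_apply_of_mem hP]
      exact hnn P hP
    · unfold AnnDatum.annDiv
      rw [Finsupp.filter_apply_neg (fun P => D.ann P = some c) _ hP]
  have hzero := finsupp_eq_zero_of_sum _ hnn' (by
    have : D.annDeg c t = 0 := by rw [← hdeg]; ring
    exact this)
  intro P hP
  rw [← D.annDiv_apply_of_mem hP]
  exact hzero P


include C hG in
/-- the reductions of `f` are `bᵢ ψᵢⁿ`, and the two constants are linked by the node values -/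
theorem Twist.exists_red_eq (T : Twist D n x) :
    ∃ b₁ b₂ : k, b₁ ≠ 0 ∧ b₂ ≠ 0 ∧ D.nod.V₁.redF T.f = algebraMap k F₁ b₁ * T.ψ₁ ^ n ∧
      D.nod.V₂.redF T.f = algebraMap k F₂ b₂ * T.ψ₂ ^ n ∧
      ∀ c, b₁ * T.v₁ c ^ n = b₂ * T.v₂ c ^ n := by
  set φ₁ := D.nod.V₁.redF T.f with hφ₁
  set φ₂ := D.nod.V₂.redF T.f with hφ₂
  have h1 : φ₁ ≠ 0 := T.toNormRep.red₁_ne C
  have h2 : φ₂ ≠ 0 := T.toNormRep.red₂_ne C hG
  obtain ⟨b₁, hb₁0, hb₁⟩ := exists_const_of_ord_zero C.hF₁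
    (y := φ₁ * (T.ψ₁ ^ n)⁻¹) (mul_ne_zero h1 (inv_ne_zero (pow_ne_zero n T.ψ₁_ne))) (fun Q => by
      rw [Q.ord_mul h1 (inv_ne_zero (pow_ne_zero n T.ψ₁_ne)), Q.ord_inv, S18lib.Cech.ord_pow,
        T.toNormRep.ord_red₁ C, T.ord₁]
      ring)
  obtain ⟨b₂, hb₂0, hb₂⟩ := exists_const_of_ord_zero C.hF₂
    (y := φ₂ * (T.ψ₂ ^ n)⁻¹) (mul_ne_zero h2 (inv_ne_zero (pow_ne_zero n T.ψ₂_ne))) (fun Q => by
      rw [Q.ord_mul h2 (inv_ne_zero (pow_ne_zero n T.ψ₂_ne)), Q.ord_inv, S18lib.Cech.ord_pow,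
        T.toNormRep.ord_red₂ C hG, T.ord₂]
      ring)
  have e₁ : φ₁ = algebraMap k F₁ b₁ * T.ψ₁ ^ n := by
    rw [← hb₁, mul_assoc, inv_mul_cancel₀ (pow_ne_zero n T.ψ₁_ne), mul_one]
  have e₂ : φ₂ = algebraMap k F₂ b₂ * T.ψ₂ ^ n := by
    rw [← hb₂, mul_assoc, inv_mul_cancel₀ (pow_ne_zero n T.ψ₂_ne), mul_one]
  refine ⟨b₁, b₂, hb₁0, hb₂0, e₁, e₂, fun c => ?_⟩
  obtain ⟨α, hα₁, hα₂⟩ := hG T.f c (T.toNormRep.mem₁ C) (T.toNormRep.mem₂ C hG)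
    (fun P hP => by rw [T.toGoodRep.ord_f_of_ann hP])
  have w₁ : HasValueAt (D.nod.x₁ c) φ₁ (b₁ * T.v₁ c ^ n) := by
    rw [e₁]
    exact (hasValueAt_const b₁).mul ((T.val₁ c).pow n)
  have w₂ : HasValueAt (D.nod.x₂ c) φ₂ (b₂ * T.v₂ c ^ n) := by
    rw [e₂]
    exact (hasValueAt_const b₂).mul ((T.val₂ c).pow n)
  rw [← hα₁.unique w₁, ← hα₂.unique w₂]

include C in
/-- **the two lifts**: `h₁` lifts `(ψ₁ χ₁, β ψ₂ χ₂)` and `h₂` lifts `(χ₁, χ₂)`, both in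
`O ∩ L(m P₁)`, where `χᵢ` has the value `1` at all the node points -/
theorem Twist.exists_lifts (T : Twist D n x) (β : k) (hβ : ∀ c, T.v₁ c = β * T.v₂ c) :
    ∃ (m : ℕ) (h₁ h₂ : F) (χ₁ : F₁) (χ₂ : F₂),
      h₁ ∈ D.nod.Lat (D.nod.chartDiv (m : ℕ) (0 : ℕ)) ∧
      h₂ ∈ D.nod.Lat (D.nod.chartDiv (m : ℕ) (0 : ℕ)) ∧
      (∀ c, HasValueAt (D.nod.x₁ c) χ₁ 1) ∧ (∀ c, HasValueAt (D.nod.x₂ c) χ₂ 1) ∧
      D.nod.V₁.redF h₁ = T.ψ₁ * χ₁ ∧ D.nod.V₂.redF h₁ = algebraMap k F₂ β * T.ψ₂ * χ₂ ∧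
      D.nod.V₁.redF h₂ = χ₁ ∧ D.nod.V₂.redF h₂ = χ₂ := by
  classical
  have c₀ : Fin D.nod.s := ⟨0, C.s_pos⟩
  have hβ0 : β ≠ 0 := by
    rintro rfl
    exact T.v₁_ne c₀ (by rw [hβ c₀, zero_mul])
  set X₁ := D.push₁ (T.E : Divisor L F) with hX₁
  set X₂ := D.push₂ (T.E : Divisor L F) with hX₂
  have hX₁0 : ∀ c, X₁ (D.nod.x₁ c) = 0 := fun c =>
    NB.pushO_apply_eq_zero D.D₁.r _ (Kap.not_good₁ D.toNRedDatum c)
  have hX₂0 : ∀ c, X₂ (D.nod.x₂ c) = 0 := fun c =>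
    NB.pushO_apply_eq_zero D.D₂.r _ (Kap.not_good₂ D.toNRedDatum c)
  set N₁ := polePart X₁ with hN₁
  set N₂ := polePart X₂ with hN₂
  have hN₁0 : ∀ c, N₁ (D.nod.x₁ c) = 0 := fun c => by
    rw [hN₁, polePart_apply, hX₁0 c]; simp
  have hN₂0 : ∀ c, N₂ (D.nod.x₂ c) = 0 := fun c => by
    rw [hN₂, polePart_apply, hX₂0 c]; simp
  have hN₁nn : ∀ Q, 0 ≤ N₁ Q := fun Q => by rw [hN₁, polePart_apply]; exact le_max_right _ _
  have hN₂nn : ∀ Q, 0 ≤ N₂ Q := fun Q => by rw [hN₂, polePart_apply]; exact le_max_right _ _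
  have hXN₁ : ∀ Q, 0 ≤ X₁ Q + N₁ Q := fun Q => by
    rw [hN₁, polePart_apply]
    have := le_max_left (-X₁ Q) 0
    linarith
  have hXN₂ : ∀ Q, 0 ≤ X₂ Q + N₂ Q := fun Q => by
    rw [hN₂, polePart_apply]
    have := le_max_left (-X₂ Q) 0
    linarith
  set m : ℕ := D.nod.s + (Divisor.degree N₁).toNat + (Divisor.degree N₂).toNat with hm
  have hm₁ : Divisor.degree N₁ ≤ ((Divisor.degree N₁).toNat : ℤ) := Int.self_le_toNat _
  have hm₂ : Divisor.degree N₂ ≤ ((Divisor.degree N₂).toNat : ℤ) := Int.self_le_toNat _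
  have hmcast : (m : ℤ) = D.nod.s + ((Divisor.degree N₁).toNat : ℤ) +
      ((Divisor.degree N₂).toNat : ℤ) := by rw [hm]; push_cast; ring
  have hst : D.nod.Stable 0 0 ((m : ℕ) : ℤ) ((0 : ℕ) : ℤ) := by
    refine C.stable_of_le_fst ?_ (by simp)
    rw [hmcast]
    push_cast
    have h1 : (0 : ℤ) ≤ ((Divisor.degree N₁).toNat : ℤ) := Int.natCast_nonneg _
    have h2 : (0 : ℤ) ≤ ((Divisor.degree N₂).toNat : ℤ) := Int.natCast_nonneg _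
    linarith
  -- the auxiliary sections
  set Y₁ : Divisor k F₁ := D.nod.chartDiv₁ ((m : ℕ) : ℤ) ((0 : ℕ) : ℤ) - N₁ with hY₁
  set Y₂ : Divisor k F₂ := D.nod.chartDiv₂ ((m : ℕ) : ℤ) ((0 : ℕ) : ℤ) - N₂ with hY₂
  have hY₁0 : ∀ c, Y₁ (D.nod.x₁ c) = 0 := fun c => by
    rw [hY₁, Finsupp.sub_apply, C.chartDiv₁_x₁, hN₁0 c, sub_zero]
  have hY₂0 : ∀ c, Y₂ (D.nod.x₂ c) = 0 := fun c => by
    rw [hY₂, Finsupp.sub_apply, C.chartDiv₂_x₂, hN₂0 c, sub_zero]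
  have hdegY₁ : 2 * ((0 : ℕ) : ℤ) - 2 + D.nod.s < Divisor.degree Y₁ := by
    rw [hY₁, map_sub, D.nod.degree_chartDiv₁]
    have e1 := C.deg_Q₁₁_pos
    have h2 : (0 : ℤ) ≤ ((Divisor.degree N₂).toNat : ℤ) := Int.natCast_nonneg _
    have h3 : (0 : ℤ) ≤ (m : ℤ) := Int.natCast_nonneg _
    have h4 : (m : ℤ) ≤ (m : ℤ) * Divisor.degree D.nod.Q₁₁ := by nlinarith
    push_cast
    linarith
  have hdegY₂ : 2 * ((0 : ℕ) : ℤ) - 2 + D.nod.s < Divisor.degree Y₂ := by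
    rw [hY₂, map_sub, D.nod.degree_chartDiv₂]
    have e1 := C.deg_Q₁₂_pos
    have h2 : (0 : ℤ) ≤ ((Divisor.degree N₁).toNat : ℤ) := Int.natCast_nonneg _
    have h3 : (0 : ℤ) ≤ (m : ℤ) := Int.natCast_nonneg _
    have h4 : (m : ℤ) ≤ (m : ℤ) * Divisor.degree D.nod.Q₁₂ := by nlinarith
    push_cast
    linarith
  obtain ⟨χ₁, hχ₁, hv₁⟩ := exists_section_value_one C.hF₁ C.x₁_injective Y₁ hY₁0 hdegY₁
  obtain ⟨χ₂, hχ₂, hv₂⟩ := exists_section_value_one C.hF₂ C.x₂_injective Y₂ hY₂0 hdegY₂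
  have hχ₁' : χ₁ ∈ riemannRochSpace (D.nod.chartDiv₁ ((m : ℕ) : ℤ) ((0 : ℕ) : ℤ)) :=
    S18lib.Cech.rr_mono (fun Q => by
      rw [hY₁, Finsupp.sub_apply]
      have := hN₁nn Q
      linarith) hχ₁
  have hχ₂' : χ₂ ∈ riemannRochSpace (D.nod.chartDiv₂ ((m : ℕ) : ℤ) ((0 : ℕ) : ℤ)) :=
    S18lib.Cech.rr_mono (fun Q => by
      rw [hY₂, Finsupp.sub_apply]
      have := hN₂nn Q
      linarith) hχ₂
  -- the two glued pairs
  have hψ₂' : algebraMap k F₂ β * T.ψ₂ ≠ 0 := mul_ne_zero ((map_ne_zero _).2 hβ0) T.ψ₂_ne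
  have hφ : ((T.ψ₁ * χ₁, algebraMap k F₂ β * T.ψ₂ * χ₂) : F₁ × F₂) ∈
      D.nod.nodal 1 ((m : ℕ) : ℤ) ((0 : ℕ) : ℤ) := by
    refine ⟨mul_mem_rr_of_ord T.ψ₁_ne T.ord₁ hXN₁ hχ₁,
      mul_mem_rr_of_ord hψ₂' (fun Q => ?_) hXN₂ hχ₂, fun c => ⟨T.v₁ c, ?_, ?_⟩⟩
    · rw [Q.ord_mul ((map_ne_zero _).2 hβ0) T.ψ₂_ne, S18lib.Cech.ord_const, zero_add, T.ord₂]
    · have := (T.val₁ c).mul (hv₁ c)
      rw [mul_one] at this
      exact this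
    · have := ((hasValueAt_const (Q := D.nod.x₂ c) β).mul (T.val₂ c)).mul (hv₂ c)
      rw [mul_one, ← hβ c] at this
      rw [Pi.one_apply, one_mul]
      exact this
  have hφ' : ((χ₁, χ₂) : F₁ × F₂) ∈ D.nod.nodal 1 ((m : ℕ) : ℤ) ((0 : ℕ) : ℤ) := by
    refine ⟨hχ₁', hχ₂', fun c => ⟨1, hv₁ c, ?_⟩⟩
    rw [Pi.one_apply, one_mul]
    exact hv₂ c
  have I₀ := C.cechInput_zero
  obtain ⟨h₁, hh₁, hr₁⟩ := I₀.exists_lift hst hφ
  obtain ⟨h₂, hh₂, hr₂⟩ := I₀.exists_lift hst hφ'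
  rw [zero_add] at hh₁ hh₂
  exact ⟨m, h₁, h₂, χ₁, χ₂, hh₁, hh₂, hv₁, hv₂, congrArg Prod.fst hr₁, congrArg Prod.snd hr₁,
    congrArg Prod.fst hr₂, congrArg Prod.snd hr₂⟩


include C hG in
/-- **trivial twist ⇒ trivial class** -/
theorem Twist.mk_eq_zero (hP₁ : D.SmoothSupp D.nod.P₁) (hP₂ : D.SmoothSupp D.nod.P₂)
    (hn : (n : k) ≠ 0) (T : Twist D n x) (β : k) (hβ : ∀ c, T.v₁ c = β * T.v₂ c) : x = 0 := by
  classical
  have hn0 : n ≠ 0 := by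
    rintro rfl
    exact hn (by simp)
  have hnpos : 0 < n := Nat.pos_of_ne_zero hn0
  have hnZ : (0 : ℤ) < n := by exact_mod_cast hnpos
  have c₀ : Fin D.nod.s := ⟨0, C.s_pos⟩
  have hβ0 : β ≠ 0 := by
    rintro rfl
    exact T.v₁_ne c₀ (by rw [hβ c₀, zero_mul])
  obtain ⟨b₁, b₂, hb₁0, hb₂0, e₁, e₂, hb⟩ := T.exists_red_eq C hG
  have hbβ : b₁ * β ^ n = b₂ := by
    have := hb c₀
    rw [hβ c₀, mul_pow, ← mul_assoc] at this
    exact mul_right_cancel₀ (pow_ne_zero n (T.v₂_ne c₀)) this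
  obtain ⟨m, h₁, h₂, χ₁, χ₂, hh₁, hh₂, hv₁, hv₂, r₁₁, r₁₂, r₂₁, r₂₂⟩ := T.exists_lifts C β hβ
  have hχ₁0 : χ₁ ≠ 0 := (hv₁ c₀).ne_zero one_ne_zero
  have hχ₂0 : χ₂ ≠ 0 := (hv₂ c₀).ne_zero one_ne_zero
  have hβF : algebraMap k F₂ β ≠ 0 := (map_ne_zero _).2 hβ0
  have hr₁₁ : D.nod.V₁.redF h₁ ≠ 0 := by rw [r₁₁]; exact mul_ne_zero T.ψ₁_ne hχ₁0
  have hr₁₂ : D.nod.V₂.redF h₁ ≠ 0 := by
    rw [r₁₂]; exact mul_ne_zero (mul_ne_zero hβF T.ψ₂_ne) hχ₂0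
  have hr₂₁ : D.nod.V₁.redF h₂ ≠ 0 := by rw [r₂₁]; exact hχ₁0
  have hr₂₂ : D.nod.V₂.redF h₂ ≠ 0 := by rw [r₂₂]; exact hχ₂0
  have hh₁0 : h₁ ≠ 0 := by
    rintro rfl
    exact hr₁₁ D.nod.V₁.redF_zero
  have hh₂0 : h₂ ≠ 0 := by
    rintro rfl
    exact hr₂₁ D.nod.V₁.redF_zero
  -- the annuli
  have hchart0 : ∀ (a b : ℤ) (P : Place L F) (c : Fin D.nod.s), D.ann P = some c →
      D.nod.chartDiv a b P = 0 := by
    intro a b P c hP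
    have hr := r_eq_none_of_ann D hP
    have h1 : D.nod.P₁ P = 0 := by
      by_contra h
      exact hP₁ P h hr
    have h2 : D.nod.P₂ P = 0 := by
      by_contra h
      exact hP₂ P h hr
    rw [D.nod.chartDiv_apply, h1, h2]
    ring
  have hE0 : ∀ (P : Place L F) (c : Fin D.nod.s), D.ann P = some c →
      (T.E : Divisor L F) P = 0 := by
    intro P c hP
    by_contra h
    exact T.smooth P h (r_eq_none_of_ann D hP)
  have hnn₁ : ∀ (P : Place L F) (c : Fin D.nod.s), D.ann P = some c → 0 ≤ P.ord h₁ := by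
    intro P c hP
    have := (S18lib.Cech.mem_rr_of_ne hh₁0).1 hh₁.1 P
    rw [hchart0 _ _ P c hP] at this
    linarith
  have hnn₂ : ∀ (P : Place L F) (c : Fin D.nod.s), D.ann P = some c → 0 ≤ P.ord h₂ := by
    intro P c hP
    have := (S18lib.Cech.mem_rr_of_ne hh₂0).1 hh₂.1 P
    rw [hchart0 _ _ P c hP] at this
    linarith
  have hord₂ : ∀ (P : Place L F) (c : Fin D.nod.s), D.ann P = some c → P.ord h₂ = 0 := by
    intro P c hP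
    exact ord_eq_zero_of_node_values hG (c := c) (fun P hP => hnn₂ P c hP) one_ne_zero one_ne_zero
      (by rw [r₂₁]; exact hv₁ c) (by rw [r₂₂]; exact hv₂ c) P hP
  -- the Kummer unit
  obtain ⟨a', ha'⟩ := IsLocalRing.residue_surjective (R := A) (b₁⁻¹)
  have ha'0 : (a' : L) ≠ 0 := by
    intro h
    have h0 : a' = 0 := Subtype.ext h
    rw [h0, map_zero] at ha'
    exact inv_ne_zero hb₁0 ha'.symm
  have ha'F : algebraMap L F (a' : L) ≠ 0 := (map_ne_zero _).2 ha'0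
  set w : F := h₂ * h₁⁻¹ with hw
  have hw0 : w ≠ 0 := mul_ne_zero hh₂0 (inv_ne_zero hh₁0)
  set z : F := algebraMap L F (a' : L) * (T.f * w ^ n) with hz
  have hfw0 : T.f * w ^ n ≠ 0 := mul_ne_zero T.f_ne (pow_ne_zero n hw0)
  have hz0 : z ≠ 0 := mul_ne_zero ha'F hfw0
  have hordz : ∀ P : Place L F, P.ord z = (n : ℤ) * ((T.E : Divisor L F) P + P.ord w) := by
    intro P
    rw [hz, P.ord_mul ha'F hfw0, S18lib.Cech.ord_const, zero_add,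
      P.ord_mul T.f_ne (pow_ne_zero n hw0), T.ord_f, S18lib.Cech.ord_pow]
    ring
  have hordw : ∀ (P : Place L F) (c : Fin D.nod.s), D.ann P = some c → P.ord w ≤ 0 := by
    intro P c hP
    rw [hw, P.ord_mul hh₂0 (inv_ne_zero hh₁0), P.ord_inv, hord₂ P c hP]
    have := hnn₁ P c hP
    linarith
  -- reductions of `w`
  have m₂₁ : h₂ ∈ D.nod.V₁.O := D.nod.V₁.mem_of_redF_ne_zero hr₂₁
  have m₂₂ : h₂ ∈ D.nod.V₂.O := D.nod.V₂.mem_of_redF_ne_zero hr₂₂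
  have i₁₁ : h₁⁻¹ ∈ D.nod.V₁.O := D.nod.V₁.inv_mem_of_redF_ne_zero hr₁₁
  have i₁₂ : h₁⁻¹ ∈ D.nod.V₂.O := D.nod.V₂.inv_mem_of_redF_ne_zero hr₁₂
  have hw₁ : w ∈ D.nod.V₁.O := D.nod.V₁.O.mul_mem _ _ m₂₁ i₁₁
  have hw₂ : w ∈ D.nod.V₂.O := D.nod.V₂.O.mul_mem _ _ m₂₂ i₁₂
  have hwr₁ : D.nod.V₁.redF w = χ₁ * (T.ψ₁ * χ₁)⁻¹ := by
    rw [hw, D.nod.V₁.redF_mul m₂₁ i₁₁, D.nod.V₁.redF_inv hr₁₁, r₂₁, r₁₁]
  have hwr₂ : D.nod.V₂.redF w = χ₂ * (algebraMap k F₂ β * T.ψ₂ * χ₂)⁻¹ := by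
    rw [hw, D.nod.V₂.redF_mul m₂₂ i₁₂, D.nod.V₂.redF_inv hr₁₂, r₂₂, r₁₂]
  have hf₁ : T.f ∈ D.nod.V₁.O := T.toNormRep.mem₁ C
  have hf₂ : T.f ∈ D.nod.V₂.O := T.toNormRep.mem₂ C hG
  have hfw₁ : T.f * w ^ n ∈ D.nod.V₁.O := D.nod.V₁.O.mul_mem _ _ hf₁ (pow_mem hw₁ n)
  have hfw₂ : T.f * w ^ n ∈ D.nod.V₂.O := D.nod.V₂.O.mul_mem _ _ hf₂ (pow_mem hw₂ n)
  have hz₁ : D.nod.V₁.redF z = 1 := by
    rw [hz, D.nod.V₁.redF_mul (D.nod.V₁.algebraMap_mem a') hfw₁, D.nod.V₁.redF_algebraMap, ha',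
      D.nod.V₁.redF_mul hf₁ (pow_mem hw₁ n), D.nod.V₁.redF_pow hw₁, e₁, hwr₁, map_inv₀]
    have hb : algebraMap k F₁ b₁ ≠ 0 := (map_ne_zero _).2 hb₁0
    have hψ := T.ψ₁_ne
    have e : χ₁ * (T.ψ₁ * χ₁)⁻¹ = T.ψ₁⁻¹ := by
      rw [mul_inv, mul_comm T.ψ₁⁻¹, ← mul_assoc, mul_inv_cancel₀ hχ₁0, one_mul]
    rw [e, inv_pow, mul_assoc, mul_inv_cancel₀ (pow_ne_zero n hψ), mul_one, inv_mul_cancel₀ hb]
  have hz₂ : D.nod.V₂.redF z = 1 := by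
    rw [hz, D.nod.V₂.redF_mul (D.nod.V₂.algebraMap_mem a') hfw₂, D.nod.V₂.redF_algebraMap, ha',
      D.nod.V₂.redF_mul hf₂ (pow_mem hw₂ n), D.nod.V₂.redF_pow hw₂, e₂, hwr₂, map_inv₀, ← hbβ,
      map_mul, map_pow]
    have hb : algebraMap k F₂ b₁ ≠ 0 := (map_ne_zero _).2 hb₁0
    have hψ : algebraMap k F₂ β * T.ψ₂ ≠ 0 := mul_ne_zero hβF T.ψ₂_ne
    have e : χ₂ * (algebraMap k F₂ β * T.ψ₂ * χ₂)⁻¹ = (algebraMap k F₂ β * T.ψ₂)⁻¹ := by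
      rw [mul_inv, mul_comm (algebraMap k F₂ β * T.ψ₂)⁻¹, ← mul_assoc, mul_inv_cancel₀ hχ₂0,
        one_mul]
    have e' : algebraMap k F₂ b₁ * algebraMap k F₂ β ^ n * T.ψ₂ ^ n =
        algebraMap k F₂ b₁ * (algebraMap k F₂ β * T.ψ₂) ^ n := by
      rw [mul_pow, mul_assoc]
    rw [e, e', inv_pow, mul_assoc, mul_inv_cancel₀ (pow_ne_zero n hψ), mul_one, inv_mul_cancel₀ hb]
  have hKu : IsKummerUnit D.nod n z :=
    ⟨hz0, fun P => ⟨_, hordz P⟩, ⟨1, one_ne_zero, by rw [hz₁, map_one]⟩,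
      ⟨1, one_ne_zero, by rw [hz₂, map_one]⟩⟩
  -- the twisted chart lattices reduce into the untwisted nodal spaces
  have Hsub : ∀ (a b : ℕ) (t : F), t ∈ D.nod.KLat n z a b → D.nod.redF t ∈ D.nod.nodal 1 a b := by
    intro a b t ht
    refine ⟨C.redF₁_mem hnpos hKu ht, C.redF₂_mem hnpos hKu ht, fun c => ?_⟩
    obtain ⟨hO, hmem⟩ := ht
    rw [NodalDatum.mem_O] at hO
    obtain ⟨α, hα₁, hα₂⟩ := hG t c hO.1 hO.2 (fun P hP => by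
      by_cases ht0 : t = 0
      · rw [ht0, P.ord_zero]
      have hne : t ^ n * z ≠ 0 := mul_ne_zero (pow_ne_zero n ht0) hz0
      have h1 := (S18lib.Cech.mem_rr_of_ne hne).1 hmem P
      rw [Finsupp.smul_apply, hchart0 _ _ P c hP, smul_zero, neg_zero,
        P.ord_mul (pow_ne_zero n ht0) hz0, S18lib.Cech.ord_pow, hordz, hE0 P c hP, zero_add,
        ← mul_add] at h1
      have h2 := hordw P c hP
      have h3 : 0 ≤ P.ord t + P.ord w := by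
        by_contra h
        push Not at h
        have := mul_neg_of_pos_of_neg hnZ h
        linarith
      linarith)
    exact ⟨α, hα₁, by rw [Pi.one_apply, one_mul]; exact hα₂⟩
  obtain ⟨h', c', hh'0, hc'0, hzeq⟩ := cech_core C n hn z hKu hz₁ hz₂ Hsub
  -- conclusion
  rw [← T.mk_E]
  unfold Pic0.mk
  rw [QuotientAddGroup.eq_zero_iff, AddSubgroup.mem_addSubgroupOf]
  refine ⟨h' * w⁻¹, mul_ne_zero hh'0 (inv_ne_zero hw0), fun P => ?_⟩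
  have h1 := hordz P
  rw [hzeq, P.ord_mul ((map_ne_zero _).2 hc'0) (pow_ne_zero n hh'0), S18lib.Cech.ord_const,
    zero_add, S18lib.Cech.ord_pow] at h1
  have h2 := mul_left_cancel₀ hnZ.ne' h1
  rw [P.ord_mul hh'0 (inv_ne_zero hw0), P.ord_inv, h2]
  simp

end Lift

end Fermat.Agent.S15lib.LocN
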