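/-
S15lib / LocN / Ann / Card  (helper4)  — Project E, block LOCN, step (5): THE COUNT.

`annCountStmt : AnnCountStmt` : on an annulus datum with genus zero components and `s` nodes, the
fixed `n`-torsion classes are at most `s · n^(s-1)`.

* `δ x = deg push₁ E_x  mod s` for a good representative `(E_x, f_x)` of `x`;  two classes with the same
  `δ` differ by a class with twist data (`Rep.lean`, `Twist.lean`);
* for a class `z` with twist data `T`, `τ z = (t_c / t_{c₀})_{c ≠ c₀} ∈ μ_n^{s-1}`, `t_c = v₁ c / v₂ c`;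
  two classes with the same `τ` are equal (`Lift.lean`);
* hence `x ↦ (δ x, τ (x - b_{δ x}))` is injective into `ℤ/s × μ_n^{s-1}`.
-/
import Fermat.Agent.S15lib.LocN.Ann.Lift
import Fermat.Agent.S15lib.LocN.Ann.Iface

set_option autoImplicit false
set_option linter.unusedSectionVars false
set_option linter.style.haveILetI false

noncomputable section

namespace Fermat.Agent.S15lib.LocN

open AlgebraicCurve Module
open Fermat.Agent.LSb Fermat.Agent.S18lib Fermat.Agent.S33lib Fermat.Agent.S33lib.N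
open Fermat.Agent.S44lib Fermat.Agent.S44lib.Ann Fermat.Agent.S19lib.C

/-! ### the abstract counting lemma -/

/-- if `δ` separates `H` into classes whose differences lie in `H₀`, and `τ` is injective on `H₀` (in
the sense that equal values force a zero difference), then `H` embeds into `ι × κ` -/
theorem finite_and_card_le_of_classes {X : Type*} [AddGroup X] (H H₀ : Set X) {ι κ : Type*}
    [Finite ι] [Finite κ] (δ : X → ι) (τ : X → κ)
    (hsub : ∀ x ∈ H, ∀ y ∈ H, δ x = δ y → x - y ∈ H₀)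
    (hinj : ∀ z ∈ H₀, ∀ z' ∈ H₀, τ z = τ z' → z - z' = 0) :
    Finite H ∧ Nat.card H ≤ Nat.card ι * Nat.card κ := by
  classical
  -- base points
  set b : ι → X := fun d => if h : ∃ x, x ∈ H ∧ δ x = d then h.choose else 0 with hb
  have hbspec : ∀ x ∈ H, b (δ x) ∈ H ∧ δ (b (δ x)) = δ x := by
    intro x hx
    have h : ∃ y, y ∈ H ∧ δ y = δ x := ⟨x, hx, rfl⟩
    have e : b (δ x) = h.choose := by rw [hb]; exact dif_pos h
    rw [e]
    exact h.choose_spec
  set Φ : H → ι × κ := fun x => (δ x, τ ((x : X) - b (δ x))) with hΦ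
  have hΦinj : Function.Injective Φ := by
    rintro ⟨x, hx⟩ ⟨y, hy⟩ hxy
    have h1 : δ x = δ y := congrArg Prod.fst hxy
    have h2 : τ (x - b (δ x)) = τ (y - b (δ y)) := congrArg Prod.snd hxy
    rw [← h1] at h2
    obtain ⟨hbH, hbδ⟩ := hbspec x hx
    have m1 : x - b (δ x) ∈ H₀ := hsub x hx _ hbH hbδ.symm
    have m2 : y - b (δ x) ∈ H₀ := hsub y hy _ hbH (by rw [hbδ, h1])
    have h3 := hinj _ m1 _ m2 h2
    rw [sub_sub_sub_cancel_right, sub_eq_zero] at h3
    exact Subtype.ext h3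
  refine ⟨Finite.of_injective Φ hΦinj, ?_⟩
  have := Nat.card_le_card_of_injective Φ hΦinj
  rwa [Nat.card_prod] at this

variable {L : Type*} [Field L] {A : ValuationSubring L}
variable {F : Type*} [Field F] [Algebra L F] [HasPrincipalDivisors L F]
variable {F₁ F₂ : Type*} [Field F₁] [Field F₂]
variable [Algebra (IsLocalRing.ResidueField A) F₁] [Algebra (IsLocalRing.ResidueField A) F₂]
variable [HasPrincipalDivisors (IsLocalRing.ResidueField A) F₁]
  [HasPrincipalDivisors (IsLocalRing.ResidueField A) F₂]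

local notation "k" => IsLocalRing.ResidueField A

section Card

variable {D : AnnDatum A F F₁ F₂} {g : ℕ} (C : NodalCtx D.nod g 0 0) (hG : D.GlueAnn)
variable {n : ℕ} {x y : Pic0 L F}

/-- the good representative of a difference -/
def GoodRep.sub (R : GoodRep D n x) (R' : GoodRep D n y) : GoodRep D n (x - y) where
  E := R.E - R'.E
  f := R.f * R'.f⁻¹
  mk_E := by
    have h1 : Pic0.mk (R.E - R'.E) = Pic0.mk R.E - Pic0.mk R'.E := rfl
    rw [h1, R.mk_E, R'.mk_E]
  smooth := by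
    rw [AddSubgroup.coe_sub, sub_eq_add_neg]
    exact R.smooth.add R'.smooth.neg
  f_ne := mul_ne_zero R.f_ne (inv_ne_zero R'.f_ne)
  ord_f := fun P => by
    rw [P.ord_mul R.f_ne (inv_ne_zero R'.f_ne), P.ord_inv, R.ord_f, R'.ord_f, AddSubgroup.coe_sub,
      Finsupp.sub_apply]
    ring

/-- the twist at the node `c` -/
def Twist.tw (T : Twist D n x) (c : Fin D.nod.s) : k := T.v₁ c / T.v₂ c

theorem Twist.tw_ne (T : Twist D n x) (c : Fin D.nod.s) : T.tw c ≠ 0 :=
  div_ne_zero (T.v₁_ne c) (T.v₂_ne c)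

include C hG in
theorem Twist.ratio_pow (T : Twist D n x) (c₀ c : Fin D.nod.s) : (T.tw c / T.tw c₀) ^ n = 1 := by
  obtain ⟨γ, hγ0, hγ⟩ := T.pow_eq C hG
  have h : ∀ c, T.tw c ^ n = γ := fun c => by
    rw [Twist.tw, div_pow, hγ c, mul_div_assoc, div_self (pow_ne_zero n (T.v₂_ne c)), mul_one]
  rw [div_pow, h c, h c₀, div_self hγ0]

/-- the normalised twist vector in `μ_n^{s-1}` -/
def Twist.tau (T : Twist D n x) (c₀ : Fin D.nod.s) :
    {c : Fin D.nod.s // c ≠ c₀} → rootsOfUnity n k := fun c =>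
  ⟨Units.mk0 (T.tw c / T.tw c₀) (div_ne_zero (T.tw_ne c) (T.tw_ne c₀)), by
    rw [mem_rootsOfUnity']
    exact T.ratio_pow C hG c₀ c⟩


include C hG in
/-- **equal normalised twist vectors ⇒ equal classes** -/
theorem Twist.sub_eq_zero_of_tau_eq (hP₁ : D.SmoothSupp D.nod.P₁) (hP₂ : D.SmoothSupp D.nod.P₂)
    (hn : (n : k) ≠ 0) (T : Twist D n x) (T' : Twist D n y) (c₀ : Fin D.nod.s)
    (h : T.tau C hG c₀ = T'.tau C hG c₀) : x - y = 0 := by
  refine (T.sub T').mk_eq_zero C hG hP₁ hP₂ hn (T.tw c₀ / T'.tw c₀) (fun c => ?_)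
  have hr : T.tw c / T.tw c₀ = T'.tw c / T'.tw c₀ := by
    by_cases hc : c = c₀
    · rw [hc, div_self (T.tw_ne c₀), div_self (T'.tw_ne c₀)]
    · have h1 := congrFun h ⟨c, hc⟩
      have h2 := congrArg (fun ζ : rootsOfUnity n k => ((ζ : kˣ) : k)) h1
      simpa [Twist.tau] using h2
  have h0 := T.tw_ne c₀
  have h0' := T'.tw_ne c₀
  have h1' := T'.tw_ne c
  have key : T.tw c / T'.tw c = T.tw c₀ / T'.tw c₀ := by
    rw [div_eq_div_iff h0 h0'] at hr
    rw [div_eq_div_iff h1' h0']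
    linear_combination hr
  rw [← key]
  show T.v₁ c * (T'.v₁ c)⁻¹ = T.tw c / T'.tw c * (T.v₂ c * (T'.v₂ c)⁻¹)
  have e1 := T.v₂_ne c
  have e2 := T'.v₁_ne c
  have e3 := T'.v₂_ne c
  unfold Twist.tw
  field_simp

end Card

/-- **the abstract annulus count** -/
theorem annCountStmt : AnnCountStmt := by
  intro L _ A F _ _ _ F₁ F₂ _ _ _ _ _ _ D g C hG G _ S hS P₀ hP₀ hval hz hpi hP₁ hP₂ n hn
  classical
  have hn0 : n ≠ 0 := by
    rintro rfl
    exact hn (by simp)
  haveI : NeZero D.nod.s := ⟨C.s_pos.ne'⟩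
  haveI : NeZero n := ⟨hn0⟩
  set c₀ : Fin D.nod.s := ⟨0, C.s_pos⟩ with hc₀
  set H : Set (Pic0 L F) := {x | (n : ℤ) • x = 0 ∧ ∀ g : G, S.ρ g • x = x} with hH
  set H₀ : Set (Pic0 L F) := {z | Nonempty (Twist D n z)} with hH₀
  set δ : Pic0 L F → ZMod D.nod.s := fun x =>
    if h : Nonempty (GoodRep D n x) then
      ((Divisor.degree (D.push₁ ((Classical.choice h).E : Divisor L F)) : ℤ) : ZMod D.nod.s)
    else 0 with hδ
  set τ : Pic0 L F →
      ({c : Fin D.nod.s // c ≠ c₀} → rootsOfUnity n (IsLocalRing.ResidueField A)) := fun z =>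
    if h : Nonempty (Twist D n z) then (Classical.choice h).tau C hG c₀ else fun _ => 1 with hτ
  have hsub : ∀ x ∈ H, ∀ y ∈ H, δ x = δ y → x - y ∈ H₀ := by
    intro x hx y hy hxy
    have hx' : Nonempty (GoodRep D n x) := exists_goodRep D C hG S hS P₀ hP₀ hval hx.1 hx.2
    have hy' : Nonempty (GoodRep D n y) := exists_goodRep D C hG S hS P₀ hP₀ hval hy.1 hy.2
    have ex : δ x = ((Divisor.degree (D.push₁ ((Classical.choice hx').E : Divisor L F)) : ℤ) :
        ZMod D.nod.s) := dif_pos hx'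
    have ey : δ y = ((Divisor.degree (D.push₁ ((Classical.choice hy').E : Divisor L F)) : ℤ) :
        ZMod D.nod.s) := dif_pos hy'
    rw [ex, ey, ZMod.intCast_eq_intCast_iff_dvd_sub] at hxy
    set Rx := Classical.choice hx'
    set Ry := Classical.choice hy'
    have hdvd : (D.nod.s : ℤ) ∣ Divisor.degree (D.push₁ ((Rx.sub Ry).E : Divisor L F)) := by
      have e : ((Rx.sub Ry).E : Divisor L F) = (Rx.E : Divisor L F) - (Ry.E : Divisor L F) := rfl
      rw [e, map_sub, map_sub]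
      exact (dvd_sub_comm).1 hxy
    obtain ⟨N⟩ := (Rx.sub Ry).exists_normRep C hG hz hpi hdvd
    obtain ⟨T, -⟩ := N.exists_twist C hG hn0
    exact ⟨T⟩
  have hinj : ∀ z ∈ H₀, ∀ z' ∈ H₀, τ z = τ z' → z - z' = 0 := by
    intro z hz z' hz' h
    have ez : τ z = (Classical.choice hz).tau C hG c₀ := dif_pos hz
    have ez' : τ z' = (Classical.choice hz').tau C hG c₀ := dif_pos hz'
    rw [ez, ez'] at h
    exact Twist.sub_eq_zero_of_tau_eq C hG hP₁ hP₂ hn _ _ c₀ h
  have main := finite_and_card_le_of_classes H H₀ δ τ hsub hinj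
  refine ⟨main.1, main.2.trans ?_⟩
  rw [Nat.card_zmod, Nat.card_fun]
  refine Nat.mul_le_mul_left _ ?_
  have e : Nat.card {c : Fin D.nod.s // c ≠ c₀} = D.nod.s - 1 := by
    rw [Nat.card_eq_fintype_card, Fintype.card_subtype, Finset.filter_ne',
      Finset.card_erase_of_mem (Finset.mem_univ _), Finset.card_univ, Fintype.card_fin]
  rw [e]
  exact Nat.pow_le_pow_left (card_rootsOfUnity (IsLocalRing.ResidueField A) n) _

end Fermat.Agent.S15lib.LocN
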